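import Fermat.Agent.ModFun.Degree
import Fermat.Agent.ModFun.MerH

/-!
# The embeddings of the function field attached to the cosets
-/

set_option autoImplicit false

noncomputable section

open UpperHalfPlane hiding I
open Function
open scoped MatrixGroups

namespace Fermat.Agent.ModFun

variable {N : ℕ} [NeZero N]

/-- `CuspAlg h` inside the meromorphic functions. -/
def toMerH (h : ℕ) : CuspAlg h →ₐ[ℂ] MerH :=
  (IsScalarTower.toAlgHom ℂ HolH MerH).comp (Subalgebra.inclusion (CuspAlg_le_HolH h))

/-- `toMerH` is the inclusion into `HolH` followed by that into `MerH`. -/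
theorem toMerH_apply (h : ℕ) (f : CuspAlg h) :
    toMerH h f = algebraMap HolH MerH ⟨f, CuspAlg_le_HolH h f.2⟩ := rfl

/-- Functions with expansions embed in the meromorphic functions. -/
theorem toMerH_injective (h : ℕ) : Function.Injective (toMerH h) := fun _ _ hfg =>
  Subalgebra.inclusion_injective (CuspAlg_le_HolH h) (IsFractionRing.injective HolH MerH hfg)

omit [NeZero N] in
theorem injective_toMerH_tr (c : Coset N) : Function.Injective ((toMerH N).comp (tr N c)) :=
  fun _ _ h => tr_injective c (toMerH_injective N h)

theorem injective_laurentExp_tr (c : Coset N) :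
    Function.Injective ((laurentExp N).comp (tr N c)) :=
  fun _ _ h => tr_injective c (laurentExp_injective N h)

/-- The embedding `x ↦ x (c⁻¹ τ)` of the function field into meromorphic functions. -/
def emb (N : ℕ) [NeZero N] (c : Coset N) : FC N →ₐ[ℂ] MerH :=
  IsFractionRing.liftAlgHom (A := Hol N) (g := (toMerH N).comp (tr N c))
    (injective_toMerH_tr c)

/-- On holomorphic functions the embedding at `c` is translation by `c`. -/
theorem emb_toFC (c : Coset N) (a : Hol N) : emb N c (toFC N a) = toMerH N (tr N c a) := by
  rw [emb, ← algebraMap_hol_apply, IsFractionRing.liftAlgHom_apply]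
  exact IsFractionRing.lift_algebraMap _ a

/-- The expansion in `exp (2πiτ/N)` of `x (c⁻¹ τ)`. -/
def cuspEmb (N : ℕ) [NeZero N] (c : Coset N) : FC N →ₐ[ℂ] LaurentSeries ℂ :=
  IsFractionRing.liftAlgHom (A := Hol N) (g := (laurentExp N).comp (tr N c))
    (injective_laurentExp_tr c)

/-- On holomorphic functions the cusp embedding at `c` is the expansion of the translate. -/
theorem cuspEmb_toFC (c : Coset N) (a : Hol N) :
    cuspEmb N c (toFC N a) = laurentExp N (tr N c a) := by
  rw [cuspEmb, ← algebraMap_hol_apply, IsFractionRing.liftAlgHom_apply]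
  exact IsFractionRing.lift_algebraMap _ a

variable (N)

/-- `j` in the function field. -/
def jF : FC N := toFC N (jd (one_dvd N))

/-- `j (N τ)` in the function field. -/
def jNF : FC N := toFC N (jd (dvd_refl N))

variable {N}

/-- The series of `jF` is the expansion of `j`. -/
theorem coe_jF : (jF N : LaurentSeries ℂ) = ModularCurve.jqModC ℂ := qExp_jd_one

/-- The series of `jNF` is the expansion of `j (N τ)`. -/
theorem coe_jNF : (jNF N : LaurentSeries ℂ) = ModularCurve.jqNModC ℂ N := qExp_jd (dvd_refl N)

/-- Every embedding fixes `j`. -/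
theorem emb_jF (c : Coset N) : emb N c (jF N) = toMerH N (jC N) := by
  rw [jF, emb_toFC, tr_jd_one_eq]

/-- Every cusp embedding sends `j` to its expansion of width `N`. -/
theorem cuspEmb_jF (c : Coset N) : cuspEmb N c (jF N) = laurentExp N (jC N) := by
  rw [jF, cuspEmb_toFC, tr_jd_one_eq]

/-- The expansion of `j` of width `N` is that of width `1` in `q ^ N`. -/
theorem laurentExp_jC_width :
    laurentExp N (jC N) = ModularCurve.qExpand ℂ N (ModularCurve.jqModC ℂ) := by
  rw [← laurentExp_jC]
  have h := laurentExp_mul (h := 1) N (jC 1)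
  have key : ∀ (k : ℕ) [NeZero k] (hk : k = N) (x : CuspAlg k), (x : ℍ → ℂ) = jH →
      laurentExp k x = laurentExp N (jC N) := by
    rintro k _ rfl x hx
    exact congrArg _ (Subtype.ext hx)
  rw [← h]
  exact (key (N * 1) (mul_one N) _ rfl).symm

/-- Different cosets give different embeddings. -/
theorem emb_injective : Function.Injective (emb N) := by
  intro c c' h
  refine tr_jd_injective (N := N) (toMerH_injective N ?_)
  have := DFunLike.congr_fun h (jNF N)
  rwa [jNF, emb_toFC, emb_toFC] at this

theorem cuspEmb_injective : Function.Injective (cuspEmb N) := by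
  intro c c' h
  refine tr_jd_injective (N := N) (laurentExp_injective N ?_)
  have := DFunLike.congr_fun h (jNF N)
  rwa [jNF, cuspEmb_toFC, cuspEmb_toFC] at this

/-- `SL(2, ℤ)` permutes the embeddings through its action on cosets. -/
theorem emb_smul (g : SL(2, ℤ)) (c : Coset N) (x : FC N) :
    actMer g (emb N c x) = emb N (g⁻¹ • c) x := by
  obtain ⟨a, b, -, rfl⟩ := exists_div_eq x
  have key : ∀ f : Hol N, actMer g (toMerH N (tr N c f)) = toMerH N (tr N (g⁻¹ • c) f) := by
    intro f
    rw [toMerH_apply, actMer_algebraMap, toMerH_apply]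
    congr 1
    exact Subtype.ext (funext fun τ => tr_smul_eq g c f τ)
  simp only [map_div₀, emb_toFC, key]

end Fermat.Agent.ModFun
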