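import Mathlib.NumberTheory.ModularForms.LevelOne.GradedRing
import Mathlib.RingTheory.LaurentSeries
import Mathlib.RingTheory.Localization.FractionRing

/-!
# Holomorphic functions on the upper half plane and their Laurent expansions at infinity

`HolH` is the algebra of holomorphic functions on `ℍ`, `BddAlg h` the algebra of holomorphic
`h`-periodic functions bounded at infinity, `CuspAlg h` the algebra of holomorphic `h`-periodic
functions which are meromorphic at infinity, and `laurentExp h` the expansion of the latter in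
the parameter `exp (2πiτ/h)`.
-/

set_option autoImplicit false

noncomputable section

open UpperHalfPlane hiding I
open Function Filter Complex
open scoped Manifold

namespace Fermat.Agent.ModFun

/-! ### Holomorphic functions and growth -/

/-- The algebra of holomorphic functions on `ℍ`. -/
def HolH : Subalgebra ℂ (ℍ → ℂ) where
  carrier := {f | MDiff f}
  mul_mem' hf hg := MDifferentiable.mul hf hg
  add_mem' hf hg := MDifferentiable.add hf hg
  algebraMap_mem' _ := mdifferentiable_const

/-- `HolH` consists of the holomorphic functions. -/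
theorem mem_HolH {f : ℍ → ℂ} : f ∈ HolH ↔ MDiff f := Iff.rfl

instance : NoZeroDivisors HolH where
  eq_zero_or_eq_zero_of_mul_eq_zero := by
    intro a b hab
    have : (a : ℍ → ℂ) * b = 0 := congrArg Subtype.val hab
    rcases (UpperHalfPlane.mul_eq_zero_iff a.2 b.2).mp this with h | h
    · exact Or.inl (Subtype.ext h)
    · exact Or.inr (Subtype.ext h)

instance : Nontrivial HolH :=
  ⟨⟨0, 1, fun h => by
    simpa using congrFun (congrArg Subtype.val h) UpperHalfPlane.I⟩⟩

instance : IsDomain HolH := NoZeroDivisors.to_isDomain _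

/-- The field of fractions of `HolH`: quotients of holomorphic functions on `ℍ`. -/
abbrev MerH : Type := FractionRing HolH

/-- `f` is meromorphic at infinity: some `Δ ^ m * f` is bounded there. -/
def MeroAtInfty (f : ℍ → ℂ) : Prop :=
  ∃ m : ℕ, IsBoundedAtImInfty (ModularForm.discriminant ^ m * f)

theorem isBounded_discriminant : IsBoundedAtImInfty ModularForm.discriminant :=
  ModularForm.discriminant_isZeroAtImInfty.isBoundedAtImInfty

/-- Constants are bounded at infinity. -/
theorem isBounded_const (c : ℂ) : IsBoundedAtImInfty (fun _ : ℍ => c) :=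
  Filter.const_boundedAtFilter atImInfty c

/-- `1` is bounded at infinity. -/
theorem isBounded_one : IsBoundedAtImInfty (1 : ℍ → ℂ) := isBounded_const 1

theorem isBounded_mul {f g : ℍ → ℂ} (hf : IsBoundedAtImInfty f) (hg : IsBoundedAtImInfty g) :
    IsBoundedAtImInfty (f * g) :=
  Filter.BoundedAtFilter.mul hf hg

theorem isBounded_add {f g : ℍ → ℂ} (hf : IsBoundedAtImInfty f) (hg : IsBoundedAtImInfty g) :
    IsBoundedAtImInfty (f + g) :=
  Filter.BoundedAtFilter.add hf hg

/-- Powers of a function bounded at `∞` are bounded at `∞`. -/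
theorem isBounded_pow {f : ℍ → ℂ} (hf : IsBoundedAtImInfty f) :
    ∀ n : ℕ, IsBoundedAtImInfty (f ^ n)
  | 0 => by simpa using isBounded_one
  | n + 1 => by simpa [pow_succ] using isBounded_mul (isBounded_pow hf n) hf

/-- Boundedness of `Δ ^ m f` implies that of `Δ ^ n f` for `n ≥ m`. -/
theorem isBounded_disc_pow_mul_of_le {f : ℍ → ℂ} {m n : ℕ} (hmn : m ≤ n)
    (hf : IsBoundedAtImInfty (ModularForm.discriminant ^ m * f)) :
    IsBoundedAtImInfty (ModularForm.discriminant ^ n * f) := by
  obtain ⟨k, rfl⟩ := Nat.exists_eq_add_of_le hmn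
  have : ModularForm.discriminant ^ (m + k) * f
      = ModularForm.discriminant ^ k * (ModularForm.discriminant ^ m * f) := by ring
  rw [this]
  exact isBounded_mul (isBounded_pow isBounded_discriminant k) hf

/-- Functions bounded at infinity are meromorphic at infinity. -/
theorem MeroAtInfty.of_isBounded {f : ℍ → ℂ} (hf : IsBoundedAtImInfty f) : MeroAtInfty f :=
  ⟨0, by simpa using hf⟩

/-- Meromorphy at infinity is preserved by sums. -/
theorem MeroAtInfty.add {f g : ℍ → ℂ} (hf : MeroAtInfty f) (hg : MeroAtInfty g) :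
    MeroAtInfty (f + g) := by
  obtain ⟨m, hm⟩ := hf
  obtain ⟨n, hn⟩ := hg
  refine ⟨max m n, ?_⟩
  rw [mul_add]
  exact isBounded_add (isBounded_disc_pow_mul_of_le (le_max_left m n) hm)
    (isBounded_disc_pow_mul_of_le (le_max_right m n) hn)

/-- Meromorphy at infinity is preserved by products. -/
theorem MeroAtInfty.mul {f g : ℍ → ℂ} (hf : MeroAtInfty f) (hg : MeroAtInfty g) :
    MeroAtInfty (f * g) := by
  obtain ⟨m, hm⟩ := hf
  obtain ⟨n, hn⟩ := hg
  refine ⟨m + n, ?_⟩
  have : ModularForm.discriminant ^ (m + n) * (f * g)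
      = (ModularForm.discriminant ^ m * f) * (ModularForm.discriminant ^ n * g) := by ring
  rw [this]
  exact isBounded_mul hm hn

/-- Meromorphy at infinity is preserved by powers. -/
theorem MeroAtInfty.pow {f : ℍ → ℂ} (hf : MeroAtInfty f) (n : ℕ) : MeroAtInfty (f ^ n) := by
  induction n with
  | zero => rw [pow_zero]; exact MeroAtInfty.of_isBounded isBounded_one
  | succ n ih => rw [pow_succ]; exact ih.mul hf

/-- Periodicity under translation by a natural number. -/
def PerH (h : ℕ) (f : ℍ → ℂ) : Prop := ∀ τ : ℍ, f ((h : ℝ) +ᵥ τ) = f τ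

/-- An `h`-periodic function on `ℍ` is periodic as a function of a complex variable. -/
theorem PerH.periodic_comp_ofComplex {h : ℕ} {f : ℍ → ℂ} (hf : PerH h f) :
    Periodic (f ∘ ofComplex) ((h : ℝ) : ℂ) := by
  intro w
  by_cases hw : 0 < w.im
  · have : 0 < (w + ((h : ℝ) : ℂ)).im := by simpa using hw
    simp only [comp_apply, ofComplex_apply_of_im_pos this, ofComplex_apply_of_im_pos hw]
    refine Eq.trans ?_ (hf ⟨w, hw⟩)
    congr 1
    ext1
    simp [add_comm]
  · push Not at hw
    have : (w + ((h : ℝ) : ℂ)).im ≤ 0 := by simpa using hw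
    simp only [comp_apply, ofComplex_apply_of_im_nonpos this, ofComplex_apply_of_im_nonpos hw]

/-- A function of period `1` has every natural period. -/
theorem PerH.of_one {f : ℍ → ℂ} (hf : PerH 1 f) : ∀ h : ℕ, PerH h f := by
  intro h
  induction h with
  | zero => intro τ; simp
  | succ n ih =>
    intro τ
    have := hf ((n : ℝ) +ᵥ τ)
    rw [vadd_vadd, ih τ] at this
    rw [← this]
    congr 1
    push_cast
    congr 1
    ring

theorem perH_one_discriminant : PerH 1 ModularForm.discriminant := by
  intro τ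
  have h := SlashInvariantForm.vAdd_apply_of_mem_strictPeriods CuspForm.discriminant τ
    (one_mem_strictPeriods_SL)
  simpa using h

/-- `Δ` is periodic. -/
theorem perH_discriminant (h : ℕ) : PerH h ModularForm.discriminant :=
  perH_one_discriminant.of_one h

/-- `Δ` is holomorphic. -/
theorem mdifferentiable_discriminant : MDiff ModularForm.discriminant := by
  simpa using CuspForm.discriminant.holo'

/-- Powers of holomorphic functions are holomorphic. -/
theorem mdifferentiable_pow {f : ℍ → ℂ} (hf : MDiff f) (n : ℕ) : MDiff (f ^ n) := by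
  simpa using (mem_HolH.mp (Subalgebra.pow_mem HolH (mem_HolH.mpr hf) n))

section Algebras

variable (h : ℕ)

/-! ### The algebras and the expansion of bounded functions -/

/-- Holomorphic `h`-periodic functions bounded at infinity. -/
def BddAlg : Subalgebra ℂ (ℍ → ℂ) where
  carrier := {f | MDiff f ∧ PerH h f ∧ IsBoundedAtImInfty f}
  mul_mem' hf hg := ⟨hf.1.mul hg.1, fun τ => by simp [hf.2.1 τ, hg.2.1 τ],
    isBounded_mul hf.2.2 hg.2.2⟩
  add_mem' hf hg := ⟨hf.1.add hg.1, fun τ => by simp [hf.2.1 τ, hg.2.1 τ],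
    isBounded_add hf.2.2 hg.2.2⟩
  algebraMap_mem' c := ⟨mdifferentiable_const, fun τ => rfl, isBounded_const c⟩

/-- Holomorphic `h`-periodic functions meromorphic at infinity. -/
def CuspAlg : Subalgebra ℂ (ℍ → ℂ) where
  carrier := {f | MDiff f ∧ PerH h f ∧ MeroAtInfty f}
  mul_mem' hf hg := ⟨hf.1.mul hg.1, fun τ => by simp [hf.2.1 τ, hg.2.1 τ], hf.2.2.mul hg.2.2⟩
  add_mem' hf hg := ⟨hf.1.add hg.1, fun τ => by simp [hf.2.1 τ, hg.2.1 τ], hf.2.2.add hg.2.2⟩
  algebraMap_mem' c := ⟨mdifferentiable_const, fun τ => rfl,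
    MeroAtInfty.of_isBounded (isBounded_const c)⟩

/-- Bounded periodic functions are meromorphic at infinity. -/
theorem BddAlg_le_CuspAlg : BddAlg h ≤ CuspAlg h :=
  fun _ hf => ⟨hf.1, hf.2.1, MeroAtInfty.of_isBounded hf.2.2⟩

/-- Functions in `CuspAlg h` are holomorphic. -/
theorem CuspAlg_le_HolH : CuspAlg h ≤ HolH := fun _ hf => hf.1

/-- `Δ` is bounded at infinity and periodic. -/
theorem discriminant_mem_BddAlg : ModularForm.discriminant ∈ BddAlg h :=
  ⟨mdifferentiable_discriminant, perH_discriminant h, isBounded_discriminant⟩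

variable [NeZero h]

/-- A nonzero natural width is positive as a real number. -/
theorem cast_pos_of_neZero : (0 : ℝ) < h := by exact_mod_cast Nat.pos_of_ne_zero (NeZero.ne h)

/-- The function of `q` of a bounded periodic function is analytic at `0`. -/
theorem analyticAt_cuspFunction {f : ℍ → ℂ} (hf : f ∈ BddAlg h) :
    AnalyticAt ℂ (cuspFunction h f) 0 :=
  analyticAt_cuspFunction_zero (cast_pos_of_neZero h) hf.2.1.periodic_comp_ofComplex hf.1 hf.2.2

/-- The expansion of a bounded periodic function, as an algebra map. -/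
def qExpBdd : BddAlg h →ₐ[ℂ] PowerSeries ℂ :=
  AlgHom.ofLinearMap
    { toFun := fun f => qExpansion h (f : ℍ → ℂ)
      map_add' := fun f g => by
        simpa using qExpansion_add (analyticAt_cuspFunction h f.2) (analyticAt_cuspFunction h g.2)
      map_smul' := fun c f => by
        simpa using qExpansion_smul (analyticAt_cuspFunction h f.2) c }
    (by simpa using qExpansion_one (h : ℝ))
    (fun f g => by
      simpa using qExpansion_mul (analyticAt_cuspFunction h f.2) (analyticAt_cuspFunction h g.2))

/-- `qExpBdd` is the `q`-expansion of the underlying function. -/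
theorem qExpBdd_apply (f : BddAlg h) : qExpBdd h f = qExpansion h (f : ℍ → ℂ) := rfl

theorem qExpBdd_injective : Function.Injective (qExpBdd h) := by
  refine (injective_iff_map_eq_zero (qExpBdd h)).mpr fun f hf => ?_
  exact Subtype.ext ((qExpansion_eq_zero_iff (cast_pos_of_neZero h)
    f.2.2.1.periodic_comp_ofComplex f.2.1 f.2.2.2).mp hf)

/-- `Δ` as an element of `BddAlg h`. -/
def discBdd : BddAlg h := ⟨ModularForm.discriminant, discriminant_mem_BddAlg h⟩

/-- The expansion of `Δ` in the parameter `exp (2πiτ/h)`, as a Laurent series. -/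
def discSeries : LaurentSeries ℂ := HahnSeries.ofPowerSeries ℤ ℂ (qExpBdd h (discBdd h))

/-- The expansion of `Δ` is nonzero. -/
theorem discSeries_ne_zero : discSeries h ≠ 0 := by
  intro h0
  have h1 : qExpBdd h (discBdd h) = 0 :=
    HahnSeries.ofPowerSeries_injective (Γ := ℤ)
      ((map_zero (HahnSeries.ofPowerSeries ℤ ℂ)).symm ▸ h0)
  have h2 : discBdd h = 0 := qExpBdd_injective h (by rw [h1, map_zero])
  have h3 := congrFun (congrArg Subtype.val h2) UpperHalfPlane.I
  exact ModularForm.discriminant_ne_zero _ h3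

variable {h}

omit [NeZero h] in
theorem disc_pow_mul_mem_BddAlg {f : ℍ → ℂ} (hf : f ∈ CuspAlg h) {m : ℕ}
    (hm : IsBoundedAtImInfty (ModularForm.discriminant ^ m * f)) :
    ModularForm.discriminant ^ m * f ∈ BddAlg h :=
  ⟨(mdifferentiable_pow mdifferentiable_discriminant m).mul hf.1,
    fun τ => by simp [perH_discriminant h τ, hf.2.1 τ], hm⟩

/-! ### The Laurent expansion -/

/-- Auxiliary value of the Laurent expansion computed with a chosen exponent. -/
def laurentAux (f : CuspAlg h) (m : ℕ)
    (hm : IsBoundedAtImInfty (ModularForm.discriminant ^ m * (f : ℍ → ℂ))) : LaurentSeries ℂ :=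
  HahnSeries.ofPowerSeries ℤ ℂ
      (qExpBdd h ⟨_, disc_pow_mul_mem_BddAlg f.2 hm⟩) / discSeries h ^ m

theorem laurentAux_eq (f : CuspAlg h) {m n : ℕ} (hmn : m ≤ n)
    (hm : IsBoundedAtImInfty (ModularForm.discriminant ^ m * (f : ℍ → ℂ)))
    (hn : IsBoundedAtImInfty (ModularForm.discriminant ^ n * (f : ℍ → ℂ))) :
    laurentAux f m hm = laurentAux f n hn := by
  obtain ⟨k, rfl⟩ := Nat.exists_eq_add_of_le hmn
  have he : (⟨_, disc_pow_mul_mem_BddAlg f.2 hn⟩ : BddAlg h)
      = discBdd h ^ k * ⟨_, disc_pow_mul_mem_BddAlg f.2 hm⟩ := by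
    apply Subtype.ext
    simp only [Subalgebra.coe_mul, SubmonoidClass.coe_pow, discBdd]
    ring
  simp only [laurentAux, he, map_mul, map_pow]
  rw [← discSeries, pow_add, mul_comm (discSeries h ^ k),
    mul_div_mul_right _ _ (pow_ne_zero _ (discSeries_ne_zero h))]

theorem laurentAux_eq' (f : CuspAlg h) {m n : ℕ}
    (hm : IsBoundedAtImInfty (ModularForm.discriminant ^ m * (f : ℍ → ℂ)))
    (hn : IsBoundedAtImInfty (ModularForm.discriminant ^ n * (f : ℍ → ℂ))) :
    laurentAux f m hm = laurentAux f n hn := by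
  rw [laurentAux_eq f (le_max_left m n) hm (isBounded_disc_pow_mul_of_le (le_max_left m n) hm),
    laurentAux_eq f (le_max_right m n) hn (isBounded_disc_pow_mul_of_le (le_max_left m n) hm)]

/-- The Laurent expansion, as a plain function. -/
def laurentFun (f : CuspAlg h) : LaurentSeries ℂ :=
  laurentAux f f.2.2.2.choose f.2.2.2.choose_spec

theorem laurentFun_eq (f : CuspAlg h) {m : ℕ}
    (hm : IsBoundedAtImInfty (ModularForm.discriminant ^ m * (f : ℍ → ℂ))) :
    laurentFun f = laurentAux f m hm :=
  laurentAux_eq' f _ hm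

theorem laurentFun_mul_disc (f : CuspAlg h) {m : ℕ}
    (hm : IsBoundedAtImInfty (ModularForm.discriminant ^ m * (f : ℍ → ℂ))) :
    laurentFun f * discSeries h ^ m
      = HahnSeries.ofPowerSeries ℤ ℂ (qExpBdd h ⟨_, disc_pow_mul_mem_BddAlg f.2 hm⟩) := by
  rw [laurentFun_eq f hm, laurentAux, div_mul_cancel₀ _ (pow_ne_zero _ (discSeries_ne_zero h))]

theorem laurentFun_of_bdd (f : BddAlg h) :
    laurentFun ⟨f, BddAlg_le_CuspAlg h f.2⟩ = HahnSeries.ofPowerSeries ℤ ℂ (qExpBdd h f) := by
  have hm : IsBoundedAtImInfty (ModularForm.discriminant ^ 0 *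
      (((⟨f, BddAlg_le_CuspAlg h f.2⟩ : CuspAlg h)) : ℍ → ℂ)) := by
    simpa using f.2.2.2
  have := laurentFun_mul_disc (⟨f, BddAlg_le_CuspAlg h f.2⟩ : CuspAlg h) hm
  rw [pow_zero, mul_one] at this
  rw [this]
  congr 2
  exact Subtype.ext (by simp)

theorem laurentFun_add (f g : CuspAlg h) : laurentFun (f + g) = laurentFun f + laurentFun g := by
  obtain ⟨m, hm⟩ := f.2.2.2
  obtain ⟨n, hn⟩ := g.2.2.2
  have hm' := isBounded_disc_pow_mul_of_le (le_max_left m n) hm
  have hn' := isBounded_disc_pow_mul_of_le (le_max_right m n) hn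
  have hs : IsBoundedAtImInfty
      (ModularForm.discriminant ^ max m n * ((f + g : CuspAlg h) : ℍ → ℂ)) := by
    rw [Subalgebra.coe_add, mul_add]; exact isBounded_add hm' hn'
  apply mul_right_cancel₀ (pow_ne_zero (max m n) (discSeries_ne_zero h))
  rw [add_mul, laurentFun_mul_disc _ hs, laurentFun_mul_disc _ hm', laurentFun_mul_disc _ hn',
    ← map_add, ← map_add]
  congr 2
  apply Subtype.ext
  simp [mul_add]

theorem laurentFun_mul (f g : CuspAlg h) : laurentFun (f * g) = laurentFun f * laurentFun g := by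
  obtain ⟨m, hm⟩ := f.2.2.2
  obtain ⟨n, hn⟩ := g.2.2.2
  have hs : IsBoundedAtImInfty
      (ModularForm.discriminant ^ (m + n) * ((f * g : CuspAlg h) : ℍ → ℂ)) := by
    have : ModularForm.discriminant ^ (m + n) * ((f * g : CuspAlg h) : ℍ → ℂ)
      = (ModularForm.discriminant ^ m * (f : ℍ → ℂ))
        * (ModularForm.discriminant ^ n * (g : ℍ → ℂ)) := by
      rw [Subalgebra.coe_mul]; ring
    rw [this]; exact isBounded_mul hm hn
  apply mul_right_cancel₀ (pow_ne_zero (m + n) (discSeries_ne_zero h))
  rw [laurentFun_mul_disc _ hs,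
    show laurentFun f * laurentFun g * discSeries h ^ (m + n)
      = (laurentFun f * discSeries h ^ m) * (laurentFun g * discSeries h ^ n) by ring,
    laurentFun_mul_disc _ hm, laurentFun_mul_disc _ hn, ← map_mul, ← map_mul]
  congr 2
  apply Subtype.ext
  simp only [Subalgebra.coe_mul]
  ring

theorem laurentFun_algebraMap (c : ℂ) :
    laurentFun (algebraMap ℂ (CuspAlg h) c) = algebraMap ℂ (LaurentSeries ℂ) c := by
  have h1 := laurentFun_of_bdd (algebraMap ℂ (BddAlg h) c)
  rw [AlgHom.commutes] at h1
  refine (Eq.trans ?_ h1).trans ?_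
  · exact congrArg laurentFun (Subtype.ext rfl)
  · rw [HahnSeries.algebraMap_apply']

variable (h)

/-- The Laurent expansion at infinity in the parameter `exp (2πiτ/h)`. -/
def laurentExp : CuspAlg h →ₐ[ℂ] LaurentSeries ℂ where
  toFun := laurentFun
  map_one' := by
    have := laurentFun_algebraMap (h := h) 1
    rwa [map_one, map_one] at this
  map_mul' := laurentFun_mul
  map_zero' := by
    have := laurentFun_algebraMap (h := h) 0
    rwa [map_zero, map_zero] at this
  map_add' := laurentFun_add
  commutes' := laurentFun_algebraMap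

/-- For bounded functions the Laurent expansion is the `q`-expansion. -/
theorem laurentExp_of_bdd (f : BddAlg h) :
    laurentExp h (Subalgebra.inclusion (BddAlg_le_CuspAlg h) f)
      = HahnSeries.ofPowerSeries ℤ ℂ (qExpBdd h f) :=
  laurentFun_of_bdd f

/-- A function is determined by its Laurent expansion. -/
theorem laurentExp_injective : Function.Injective (laurentExp h) := by
  refine (injective_iff_map_eq_zero (laurentExp h)).mpr fun f hf => ?_
  obtain ⟨m, hm⟩ := f.2.2.2
  have h1 := laurentFun_mul_disc f hm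
  have hf' : laurentFun f = 0 := hf
  rw [hf', zero_mul] at h1
  have h2 : (⟨_, disc_pow_mul_mem_BddAlg f.2 hm⟩ : BddAlg h) = 0 :=
    qExpBdd_injective h (HahnSeries.ofPowerSeries_injective (by rw [← h1, map_zero, map_zero]))
  refine Subtype.ext (funext fun τ => ?_)
  have h3 := congrFun (congrArg Subtype.val h2) τ
  simpa [ModularForm.discriminant_ne_zero τ] using h3

instance : IsDomain (CuspAlg h) :=
  Function.Injective.isDomain (laurentExp h).toRingHom (laurentExp_injective h)

end Algebras

end Fermat.Agent.ModFun
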