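import Fermat.Agent.ModFun.Places

/-!
# The cusp places of the complex function field
-/

set_option autoImplicit false

noncomputable section

open UpperHalfPlane hiding I
open Function Filter Complex AlgebraicCurve IntermediateField
open scoped WithZero Real

namespace Fermat.Agent.ModFun

section ValInf

variable (K : Type*) [Field K]

open scoped Classical in
/-- `exp (-order)` on Laurent series. -/
def valInf : Valuation (LaurentSeries K) ℤᵐ⁰ where
  toFun x := if x = 0 then 0 else WithZero.exp (-x.order)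
  map_zero' := if_pos rfl
  map_one' := by rw [if_neg one_ne_zero]; simp
  map_mul' x y := by
    rcases eq_or_ne x 0 with rfl | hx
    · simp
    rcases eq_or_ne y 0 with rfl | hy
    · simp
    rw [if_neg (mul_ne_zero hx hy), if_neg hx, if_neg hy, ← WithZero.exp_add,
      HahnSeries.order_mul hx hy]
    ring_nf
  map_add_le_max' x y := by
    rcases eq_or_ne x 0 with rfl | hx
    · simp
    rcases eq_or_ne y 0 with rfl | hy
    · simp
    rcases eq_or_ne (x + y) 0 with h | h
    · simp [h]
    rw [if_neg hx, if_neg hy, if_neg h, le_max_iff, WithZero.exp_le_exp, WithZero.exp_le_exp]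
    have := HahnSeries.min_order_le_order_add (x := x) (y := y) h
    omega

variable {K}

/-- On a nonzero series `valInf` is `exp (-order)`. -/
theorem valInf_apply {x : LaurentSeries K} (hx : x ≠ 0) :
    valInf K x = WithZero.exp (-x.order) := if_neg hx

/-- The order for `valInf` is the order of the series. -/
theorem ordL_valInf {x : LaurentSeries K} (hx : x ≠ 0) : Genus.ordL (valInf K) x = x.order := by
  simp [Genus.ordL, valInf_apply hx]

/-- Nonzero constants have valuation `1`. -/
theorem valInf_constant {c : K} (hc : c ≠ 0) :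
    valInf K (algebraMap K (LaurentSeries K) c) = 1 := by
  have h : algebraMap K (LaurentSeries K) c ≠ 0 := by simpa using hc
  rw [valInf_apply h, ModularCurve.algebraMap_laurentSeries_eq_single,
    HahnSeries.order_single hc]
  simp

/-- Twisting preserves the valuation. -/
theorem valInf_twist (u : Kˣ) (x : LaurentSeries K) : valInf K (twist u x) = valInf K x := by
  rcases eq_or_ne x 0 with rfl | hx
  · simp
  have h : twist u x ≠ 0 := (map_ne_zero _).mpr hx
  rw [valInf_apply hx, valInf_apply h]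
  congr 2
  refine le_antisymm (HahnSeries.order_le_of_coeff_ne_zero ?_)
    (HahnSeries.order_le_of_coeff_ne_zero ?_)
  · rw [coeff_twist]
    refine mul_ne_zero (Units.ne_zero _) ?_
    rw [← HahnSeries.leadingCoeff_eq, ne_eq, HahnSeries.leadingCoeff_eq_zero]
    exact hx
  · have : (twist u x).coeff (twist u x).order ≠ 0 := by
      rw [← HahnSeries.leadingCoeff_eq, ne_eq, HahnSeries.leadingCoeff_eq_zero]
      exact h
    rw [coeff_twist] at this
    exact right_ne_zero_of_mul this

end ValInf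

variable {N : ℕ} [NeZero N]

/-- `exp (-2πi/N)`. -/
def rootInv (N : ℕ) : ℂˣ := Units.mk0 (Complex.exp (-(2 * π * Complex.I / N)))
    (Complex.exp_ne_zero _)

/-- A power of the twisting root is `1` only for exponents divisible by `N`. -/
theorem rootInv_zpow_eq_one {k : ℤ} (h : rootInv N ^ k = 1) : (N : ℤ) ∣ k := by
  have h1 : ((rootInv N ^ k : ℂˣ) : ℂ) = 1 := by rw [h]; rfl
  rw [Units.val_zpow_eq_zpow_val, rootInv, Units.val_mk0, ← Complex.exp_int_mul,
    Complex.exp_eq_one_iff] at h1
  obtain ⟨n, hn⟩ := h1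
  refine ⟨-n, ?_⟩
  have hN : (N : ℂ) ≠ 0 := by exact_mod_cast NeZero.ne N
  have h2 : (k : ℂ) * (2 * π * Complex.I) = ((N : ℂ) * (-n)) * (2 * π * Complex.I) := by
    field_simp at hn
    linear_combination (-(2 * π * Complex.I)) * hn
  have h3 := mul_right_cancel₀ Complex.two_pi_I_ne_zero h2
  exact_mod_cast h3

/-- A series fixed by the `n`-th twist has exponents killed by `n` modulo `N`. -/
theorem dvd_mul_ordL_of_twist_iterate {n : ℕ} {g : LaurentSeries ℂ} (hg : g ≠ 0)
    (hfix : (twist (rootInv N))^[n] g = g) :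
    (N : ℤ) ∣ (n : ℤ) * Genus.ordL (valInf ℂ) g := by
  have hiterate : ∀ (n : ℕ) (g : LaurentSeries ℂ),
      (twist (rootInv N))^[n] g = twist (rootInv N ^ n) g := by
    intro n g
    induction n with
    | zero => ext k; simp
    | succ n ih =>
      rw [Function.iterate_succ_apply', ih]
      ext k
      simp only [coeff_twist, ← mul_assoc, ← Units.val_mul, pow_succ', mul_zpow]
  rw [ordL_valInf hg]
  rw [hiterate] at hfix
  have hc : g.coeff g.order ≠ 0 := by
    rw [← HahnSeries.leadingCoeff_eq, ne_eq, HahnSeries.leadingCoeff_eq_zero]; exact hg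
  have h1 := congrArg (fun z => z.coeff g.order) hfix
  simp only [coeff_twist] at h1
  have h2 : (rootInv N ^ n) ^ g.order = 1 :=
    Units.ext (mul_right_cancel₀ hc (h1.trans (one_mul _).symm))
  rw [← zpow_natCast, ← zpow_mul] at h2
  exact rootInv_zpow_eq_one h2

omit [NeZero N] in
theorem qFun_shift (τ : ℍ) :
    qFun N (((-1 : ℤ) : ℝ) +ᵥ τ) = (rootInv N : ℂ) * qFun N τ := by
  simp only [qFun, rootInv, Units.val_mk0, Function.Periodic.qParam, coe_vadd,
    ← Complex.exp_add]
  congr 1
  push_cast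
  field_simp

omit [NeZero N] in
theorem hasSum_shift {f : ℍ → ℂ} {n : ℕ} {c : ℕ → ℂ}
    (hc : ∀ τ : ℍ, HasSum (fun m : ℕ => c m • qFun N τ ^ m) (qFun N τ ^ n * f τ)) (τ : ℍ) :
    HasSum (fun m : ℕ => (((rootInv N ^ (-(n : ℤ)) : ℂˣ) : ℂ) * ((rootInv N : ℂ) ^ m * c m))
        • qFun N τ ^ m)
      (qFun N τ ^ n * f (((-1 : ℤ) : ℝ) +ᵥ τ)) := by
  have h1 := (hc (((-1 : ℤ) : ℝ) +ᵥ τ)).mul_left (((rootInv N ^ (-(n : ℤ)) : ℂˣ) : ℂ))
  rw [qFun_shift, mul_pow, ← mul_assoc, ← mul_assoc] at h1
  rw [zpow_neg, zpow_natCast, ← Units.val_pow_eq_pow_val, Units.inv_mul, one_mul] at h1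
  refine h1.congr_fun fun m => ?_
  simp only [smul_eq_mul, zpow_neg, zpow_natCast]
  rw [mul_pow]
  ring

/-- Translating the variable by `-1` twists the expansion. -/
theorem laurentExp_shift (f g : CuspAlg N)
    (hg : ∀ τ, (g : ℍ → ℂ) τ = (f : ℍ → ℂ) (((-1 : ℤ) : ℝ) +ᵥ τ)) :
    laurentExp N g = twist (rootInv N) (laurentExp N f) := by
  obtain ⟨n, c, hc, he⟩ := exists_hasSum f
  rw [laurentExp_eq_of_hasSum g (n := n) (fun τ => by rw [hg]; exact hasSum_shift hc τ), he,
    map_mul, twist_single, twist_ofPowerSeries_mk, mul_one]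
  rw [show HahnSeries.single (-(n : ℤ)) ((rootInv N ^ (-(n : ℤ)) : ℂˣ) : ℂ)
      = HahnSeries.single (-(n : ℤ)) (1 : ℂ)
        * HahnSeries.C (((rootInv N ^ (-(n : ℤ)) : ℂˣ) : ℂ)) by
    rw [HahnSeries.C_apply, HahnSeries.single_mul_single, one_mul, add_zero],
    mul_assoc, ← HahnSeries.ofPowerSeries_C, ← map_mul]
  congr 2
  ext m
  rw [PowerSeries.coeff_C_mul, PowerSeries.coeff_mk, PowerSeries.coeff_mk]

/-- The embedding at the coset `T c` is the twist of that at `c`. -/
theorem cuspEmb_T_smul (c : Coset N) (x : FC N) :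
    cuspEmb N (ModularGroup.T • c) x = twist (rootInv N) (cuspEmb N c x) := by
  obtain ⟨a, b, -, rfl⟩ := exists_div_eq x
  have key : ∀ f : Hol N, laurentExp N (tr N (ModularGroup.T • c) f)
      = twist (rootInv N) (laurentExp N (tr N c f)) := fun f => by
    refine laurentExp_shift _ _ fun τ => ?_
    have h := tr_smul_eq (ModularGroup.T⁻¹) c f τ
    rw [inv_inv, show ModularGroup.T⁻¹ = ModularGroup.T ^ (-1 : ℤ) from (zpow_neg_one _).symm,
      modular_T_zpow_smul] at h
    exact h.symm
  simp only [map_div₀, cuspEmb_toFC, key]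

/-- At level `N` the expansion of `j` has order `-N`. -/
theorem order_laurentExp_jC :
    (laurentExp N (jC N)).order = -(N : ℤ) ∧ laurentExp N (jC N) ≠ 0 := by
  rw [laurentExp_jC_width]
  have hc : ((ModularCurve.qExpand ℂ N) (ModularCurve.jqModC ℂ)).coeff (-(N : ℤ)) = 1 := by
    rw [show -(N : ℤ) = (N : ℤ) * -1 by ring, ModularCurve.qExpand_coeff_mul]
    simpa using ModularCurve.coeff_jqModC_pow_self ℂ 1
  have hne : ((ModularCurve.qExpand ℂ N) (ModularCurve.jqModC ℂ)) ≠ 0 := fun h => by
    rw [h] at hc; simp at hc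
  refine ⟨le_antisymm (HahnSeries.order_le_of_coeff_ne_zero (by rw [hc]; exact one_ne_zero)) ?_,
    hne⟩
  by_contra hlt
  push Not at hlt
  have hz : ((ModularCurve.qExpand ℂ N) (ModularCurve.jqModC ℂ)).coeff
      ((ModularCurve.qExpand ℂ N) (ModularCurve.jqModC ℂ)).order ≠ 0 := by
    rw [← HahnSeries.leadingCoeff_eq, ne_eq, HahnSeries.leadingCoeff_eq_zero]
    exact hne
  by_cases hd : (N : ℤ) ∣ ((ModularCurve.qExpand ℂ N) (ModularCurve.jqModC ℂ)).order
  · obtain ⟨k, hk⟩ := hd
    rw [hk, ModularCurve.qExpand_coeff_mul] at hz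
    rw [hk] at hlt
    have hk1 : k < -1 := by
      nlinarith
    have := ModularCurve.coeff_jqModC_pow_of_lt ℂ (b := 1) (m := k) (by simpa using hk1)
    rw [pow_one] at this
    exact hz this
  · exact hz (ModularCurve.qExpand_coeff_of_not_dvd N _ hd)

theorem one_lt_valInf_jF (c : Coset N) : 1 < valInf ℂ (cuspEmb N c (jF N)) := by
  rw [cuspEmb_jF, valInf_apply order_laurentExp_jC.2, order_laurentExp_jC.1, ← WithZero.exp_zero,
    WithZero.exp_lt_exp]
  have := Nat.pos_of_ne_zero (NeZero.ne N)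
  omega

/-- The place of the function field at the cusp of `c`. -/
def placeCusp (N : ℕ) [NeZero N] (c : Coset N) : Place ℂ (FC N) :=
  placeOfEmb (valInf ℂ) (fun _ hc => valInf_constant hc) (cuspEmb N c) (one_lt_valInf_jF c)

theorem mem_placeCusp_iff (c : Coset N) (x : FC N) :
    x ∈ (placeCusp N c).toValuationSubring ↔ valInf ℂ (cuspEmb N c x) ≤ 1 :=
  mem_placeOfEmb _ _ _ _ x

open scoped Classical in
/-- The places over `j = ∞`, labelled by the cusps; ramification = width. -/
theorem places_over_infty :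
    (∀ v : Place ℂ (FC N), jF N ∉ v.toValuationSubring ↔ ∃ c : Coset N, v = placeCusp N c) ∧
    (∀ c c' : Coset N, placeCusp N c = placeCusp N c' ↔
      ∃ k : ℤ, ModularGroup.T ^ k • c' = c) ∧
    ∀ c : Coset N, (placeCusp N c).ord (jF N)
      = -(MulAction.period ModularGroup.T c : ℤ) := by
  let : Fintype (Coset N) := Fintype.ofFinite _
  have ht : Transcendental ℂ (jF N)⁻¹ := fun h => transcendental_jF (IsAlgebraic.inv_iff.mp h)
  have hne : (jF N) ≠ 0 := fun h => transcendental_jF (h ▸ isAlgebraic_zero)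
  -- The places over `1 / j = 0` are the orbits of `T` on the cusps, with ramification the period.
  have h := places_iff_orbits (jF N)⁻¹ 0 ht (valInf ℂ) (fun _ hc => valInf_constant hc)
    (cuspEmb N) cuspEmb_injective
    (by rw [FF.finrank_adjoin_inv, ← Nat.card_eq_fintype_card]; exact finrank_adjoin_jF.2.symm)
    (laurentExp N (jC N))⁻¹ (fun c => by rw [map_inv₀, cuspEmb_jF]) N (NeZero.ne N)
    (by
      rw [map_zero, sub_zero, Genus.ordL, map_inv₀, WithZero.log_inv,
        valInf_apply order_laurentExp_jC.2, order_laurentExp_jC.1]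
      simp)
    (cosetPerm ModularGroup.T) (twist (rootInv N)) (fun c x => cuspEmb_T_smul c x)
    (valInf_twist _)
    (fun n g hg hfix => dvd_mul_ordL_of_twist_iterate hg hfix)
    (placeCusp N) mem_placeCusp_iff
  rw [map_zero, sub_zero] at h
  refine ⟨fun v => ?_, fun c c' => ?_, fun c => ?_⟩
  · rw [← h.1 v, v.ord_inv, FF.mem_iff_ord v hne]
    omega
  · refine (h.2.1 c c').trans ⟨mem_orbit_cosetPerm, ?_⟩
    rintro ⟨k, rfl⟩
    refine ⟨⟨(cosetPerm ModularGroup.T) ^ k, Subgroup.zpow_mem_zpowers _ k⟩, ?_⟩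
    show ((cosetPerm ModularGroup.T) ^ k) c' = _
    rw [cosetPerm, ← MulAction.toPermHom_apply, ← map_zpow]
    rfl
  · have h1 := h.2.2 c
    rw [(placeCusp N c).ord_inv] at h1
    rw [MulAction.period_eq_minimalPeriod]
    have h2 : Function.minimalPeriod (fun d : Coset N => ModularGroup.T • d) c
        = Function.minimalPeriod ((cosetPerm (N := N) ModularGroup.T) • ·) c := rfl
    rw [h2, ← h1, neg_neg]

/-- Every place is a `placeAt` or a `placeCusp`. -/
theorem exists_eq_placeAt_or_placeCusp (v : Place ℂ (FC N)) :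
    (∃ τ : ℍ, v = placeAt N τ) ∨ ∃ c : Coset N, v = placeCusp N c := by
  by_cases hv : jF N ∈ v.toValuationSubring
  · exact Or.inl (exists_eq_placeAt hv)
  · exact Or.inr ((places_over_infty.1 v).mp hv)

/-- `cuspEmb c` computes the order at `placeCusp c` up to a positive factor. -/
theorem exists_order_eq_mul (c : Coset N) : ∃ m : ℤ, 0 < m ∧
    (m * MulAction.period ModularGroup.T c = N) ∧ ∀ x : FC N, x ≠ 0 →
      (cuspEmb N c x).order = m * (placeCusp N c).ord x := by
  obtain ⟨m, hm, h⟩ := exists_pos_mul_of_mem_iff (placeCusp N c) (valInf ℂ) (cuspEmb N c)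
    (mem_placeCusp_iff c)
  have hne : (jF N) ≠ 0 := fun h => transcendental_jF (h ▸ isAlgebraic_zero)
  refine ⟨m, hm, ?_, fun x hx => by
    rw [← ordL_valInf ((_root_.map_ne_zero _).mpr hx)]; exact h x hx⟩
  have h1 := h _ hne
  rw [cuspEmb_jF, ordL_valInf order_laurentExp_jC.2, order_laurentExp_jC.1,
    places_over_infty.2.2 c] at h1
  linear_combination h1

end Fermat.Agent.ModFun
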