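import Fermat.Agent.ModFun.Embed

/-!
# The weight zero transformation of `f / Δ ^ k` for `f` of weight `12 k`
-/

set_option autoImplicit false

noncomputable section

open UpperHalfPlane hiding I
open scoped MatrixGroups ModularForm

namespace Fermat.Agent.ModFun

variable {N : ℕ} [NeZero N]

omit [NeZero N] in
/-- `Δ` transforms with weight `12` under `SL(2, ℤ)`. -/
theorem discriminant_smul (g : SL(2, ℤ)) (τ : ℍ) :
    ModularForm.discriminant (g • τ) = denom g τ ^ (12 : ℤ) * ModularForm.discriminant τ :=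
  SlashInvariantForm.slash_action_eqn'' CuspForm.discriminant (Γ := 𝒮ℒ) ⟨g, rfl⟩ τ

omit [NeZero N] in
/-- `f / Δ ^ k` transforms in weight zero like `f` in weight `12 k`. -/
theorem div_disc_pow_smul {k : ℕ} (f : ℍ → ℂ) (g : SL(2, ℤ)) (τ : ℍ) :
    f (g • τ) / ModularForm.discriminant (g • τ) ^ k
      = (f ∣[((12 * k : ℕ) : ℤ)] g) τ / ModularForm.discriminant τ ^ k := by
  have hd := denom_ne_zero g τ
  have hD := ModularForm.discriminant_ne_zero τ
  rw [discriminant_smul, ModularForm.SL_slash_apply, mul_pow, zpow_neg, zpow_natCast]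
  simp only [zpow_ofNat, ← pow_mul]
  field_simp

end Fermat.Agent.ModFun
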