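import Fermat.Agent.ModFun.JFun

/-!
# Expansions of `f ((aτ + b)/d)`

For `f` of period one, meromorphic at infinity, `τ ↦ f ((aτ + b)/d)` has period `d` and its
expansion in `exp (2πiτ/d)` is the twist of that of `f`, with exponents multiplied by `a`.
-/

set_option autoImplicit false

noncomputable section

open UpperHalfPlane hiding I
open Function Filter Complex
open scoped Manifold Real

namespace Fermat.Agent.ModFun

section Twist

variable {K : Type*} [Field K]

/-- Multiply the `k`-th coefficient by `u ^ k`. -/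
def twistFun (u : Kˣ) (x : LaurentSeries K) : LaurentSeries K :=
  HahnSeries.mk (fun k => ((u ^ k : Kˣ) : K) * x.coeff k) <|
    x.isPWO_support.mono fun k hk => by
      simp only [Function.mem_support, ne_eq] at hk ⊢
      exact fun h => hk (by rw [h, mul_zero])

theorem coeff_twistFun (u : Kˣ) (x : LaurentSeries K) (k : ℤ) :
    (twistFun u x).coeff k = ((u ^ k : Kˣ) : K) * x.coeff k := rfl

theorem support_twistFun (u : Kˣ) (x : LaurentSeries K) :
    (twistFun u x).support = x.support := by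
  ext k
  simp only [HahnSeries.mem_support, coeff_twistFun, ne_eq, mul_eq_zero, Units.ne_zero, false_or]

theorem twistFun_mul (u : Kˣ) (x y : LaurentSeries K) :
    twistFun u (x * y) = twistFun u x * twistFun u y := by
  ext k
  rw [coeff_twistFun, HahnSeries.coeff_mul, HahnSeries.coeff_mul, Finset.mul_sum]
  refine Finset.sum_congr (by simp only [support_twistFun]) fun ij hij => ?_
  have hk : ij.1 + ij.2 = k := (Finset.mem_antidiagonal.mp hij).2.2
  rw [coeff_twistFun, coeff_twistFun, ← hk, zpow_add, Units.val_mul]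
  ring

/-- `q ↦ u q` on Laurent series. -/
def twist (u : Kˣ) : LaurentSeries K →+* LaurentSeries K where
  toFun := twistFun u
  map_one' := by
    ext k
    rw [coeff_twistFun, HahnSeries.coeff_one]
    split_ifs with h
    · simp [h]
    · simp
  map_mul' := twistFun_mul u
  map_zero' := by ext k; simp [coeff_twistFun]
  map_add' x y := by ext k; simp [coeff_twistFun, mul_add]

/-- `twist u` multiplies the coefficient of degree `k` by `u ^ k`. -/
@[simp]
theorem coeff_twist (u : Kˣ) (x : LaurentSeries K) (k : ℤ) :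
    (twist u x).coeff k = ((u ^ k : Kˣ) : K) * x.coeff k := rfl

/-- A twist by `u` with `u ^ d = 1` fixes series in `q ^ d`. -/
theorem twist_qExpand_of_pow_eq_one (u : Kˣ) (d : ℕ) [NeZero d] (hu : u ^ d = 1)
    (x : LaurentSeries K) : twist u (ModularCurve.qExpand K d x) = ModularCurve.qExpand K d x := by
  ext n
  rw [coeff_twist]
  by_cases h : (d : ℤ) ∣ n
  · obtain ⟨m, rfl⟩ := h
    rw [zpow_mul, zpow_natCast, hu, one_zpow, Units.val_one, one_mul]
  · rw [ModularCurve.qExpand_coeff_of_not_dvd d x h, mul_zero]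

/-- A twist multiplies a monomial of degree `k` by `u ^ k`. -/
theorem twist_single (u : Kˣ) (k : ℤ) (r : K) :
    twist u (HahnSeries.single k r) = HahnSeries.single k (((u ^ k : Kˣ) : K) * r) := by
  ext i
  rcases eq_or_ne i k with rfl | h
  · simp
  · simp [HahnSeries.coeff_single_of_ne h]

/-- A twist multiplies the `m`-th coefficient of a power series by `u ^ m`. -/
theorem twist_ofPowerSeries_mk (u : Kˣ) (c : ℕ → K) :
    twist u (HahnSeries.ofPowerSeries ℤ K (PowerSeries.mk c))
      = HahnSeries.ofPowerSeries ℤ K (PowerSeries.mk fun m => (u : K) ^ m * c m) := by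
  ext i
  rw [coeff_twist]
  rcases lt_or_ge i 0 with hi | hi
  · rw [ModularCurve.ofPowerSeries_coeff_of_neg _ hi, ModularCurve.ofPowerSeries_coeff_of_neg _ hi,
      mul_zero]
  · lift i to ℕ using hi
    simp [HahnSeries.ofPowerSeries_apply_coeff]

theorem qExpand_ofPowerSeries_mk (k : ℕ) [NeZero k] (c : ℕ → K) :
    ModularCurve.qExpand K k (HahnSeries.ofPowerSeries ℤ K (PowerSeries.mk c))
      = HahnSeries.ofPowerSeries ℤ K
          (PowerSeries.mk (Function.extend (fun i => k * i) c 0)) := by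
  have hk : 0 < k := Nat.pos_of_ne_zero (NeZero.ne k)
  ext i
  by_cases hi : (k : ℤ) ∣ i
  · obtain ⟨j, rfl⟩ := hi
    rw [ModularCurve.qExpand_coeff_mul]
    rcases lt_or_ge j 0 with hj | hj
    · rw [ModularCurve.ofPowerSeries_coeff_of_neg _ hj,
        ModularCurve.ofPowerSeries_coeff_of_neg _ (mul_neg_of_pos_of_neg (by exact_mod_cast hk) hj)]
    · lift j to ℕ using hj
      rw [← Nat.cast_mul, HahnSeries.ofPowerSeries_apply_coeff,
        HahnSeries.ofPowerSeries_apply_coeff, PowerSeries.coeff_mk, PowerSeries.coeff_mk,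
        Function.Injective.extend_apply fun a b hab => Nat.eq_of_mul_eq_mul_left hk hab]
  · rw [ModularCurve.qExpand_coeff_of_not_dvd k _ hi]
    rcases lt_or_ge i 0 with hi0 | hi0
    · rw [ModularCurve.ofPowerSeries_coeff_of_neg _ hi0]
    · lift i to ℕ using hi0
      rw [HahnSeries.ofPowerSeries_apply_coeff, PowerSeries.coeff_mk, Function.extend_apply']
      · rfl
      · rintro ⟨a, rfl⟩
        exact hi ⟨a, by push_cast; ring⟩

end Twist

/-- `τ ↦ (aτ + b)/d` on `ℍ`. -/
def affine (a : ℕ) (b : ℤ) (d : ℕ) [NeZero a] [NeZero d] (τ : ℍ) : ℍ :=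
  ⟨((a : ℂ) * τ + b) / (d : ℂ), by
    have ha : (0 : ℝ) < a := by exact_mod_cast Nat.pos_of_ne_zero (NeZero.ne a)
    have hd : (0 : ℝ) < d := by exact_mod_cast Nat.pos_of_ne_zero (NeZero.ne d)
    rw [Complex.div_natCast_im]
    simp only [add_im, mul_im, natCast_re, natCast_im, zero_mul, add_zero, intCast_im]
    exact div_pos (mul_pos ha τ.im_pos) hd⟩

section Affine

variable (a : ℕ) (b : ℤ) (d : ℕ) [NeZero a] [NeZero d]

/-- The value of `affine a b d τ` is `(a τ + b) / d`. -/
theorem coe_affine (τ : ℍ) : (affine a b d τ : ℂ) = ((a : ℂ) * τ + b) / (d : ℂ) := rfl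

/-- The imaginary part of `(aτ + b)/d` is `a Im τ / d`. -/
theorem im_affine (τ : ℍ) : (affine a b d τ).im = a * τ.im / d := by
  show (((a : ℂ) * τ + b) / (d : ℂ)).im = _
  rw [Complex.div_natCast_im]
  simp

/-- Precomposition with `(aτ + b)/d` preserves holomorphy. -/
theorem mdifferentiable_comp_affine {f : ℍ → ℂ} (hf : MDiff f) :
    MDiff (fun τ => f (affine a b d τ)) := by
  rw [UpperHalfPlane.mdifferentiable_iff] at hf ⊢
  have h1 : DifferentiableOn ℂ
      (fun z : ℂ => (f ∘ ofComplex) (((a : ℂ) * z + b) / (d : ℂ))) {z | 0 < z.im} := by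
    refine hf.comp (by fun_prop) fun z hz => ?_
    exact (affine a b d ⟨z, hz⟩).im_pos
  refine h1.congr fun z hz => ?_
  simp only [comp_apply, ofComplex_apply_of_im_pos hz]
  rw [ofComplex_apply_of_im_pos (show 0 < (((a : ℂ) * z + b) / (d : ℂ)).im from
    (affine a b d ⟨z, hz⟩).im_pos)]
  rfl

/-- The root of unity `exp (2πib/d)`. -/
def affineRoot : ℂˣ :=
  Units.mk0 (Complex.exp (2 * π * Complex.I * b / d)) (Complex.exp_ne_zero _)

theorem qFun_one_affine (τ : ℍ) :
    qFun 1 (affine a b d τ) = (affineRoot b d : ℂ) * qFun d τ ^ a := by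
  have hd : (d : ℂ) ≠ 0 := by exact_mod_cast NeZero.ne d
  simp only [qFun, affineRoot, Units.val_mk0, Periodic.qParam, coe_affine,
    ← Complex.exp_nat_mul, ← Complex.exp_add]
  congr 1
  push_cast
  field_simp
  ring

/-- The `q`-series of `f ((aτ + b)/d)` obtained from that of `f`. -/
theorem hasSum_affine {f : ℍ → ℂ} {n : ℕ} {c : ℕ → ℂ}
    (hc : ∀ τ : ℍ, HasSum (fun m : ℕ => c m • qFun 1 τ ^ m) (qFun 1 τ ^ n * f τ)) (τ : ℍ) :
    HasSum (fun m : ℕ => Function.extend (fun i => a * i)
        (fun i => ((affineRoot b d ^ (-(n : ℤ)) : ℂˣ) : ℂ)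
          * ((affineRoot b d : ℂ) ^ i * c i)) 0 m • qFun d τ ^ m)
      (qFun d τ ^ (a * n) * f (affine a b d τ)) := by
  have hinj : Function.Injective (fun i : ℕ => a * i) :=
    fun x y hxy => Nat.eq_of_mul_eq_mul_left (Nat.pos_of_ne_zero (NeZero.ne a)) hxy
  refine (hinj.hasSum_iff ?_).mp ?_
  · intro m hm
    rw [Function.extend_apply' _ _ _ (by simpa using hm)]
    simp
  · have h1 := (hc (affine a b d τ)).mul_left (((affineRoot b d ^ (-(n : ℤ)) : ℂˣ) : ℂ))
    rw [qFun_one_affine, mul_pow, ← pow_mul, ← mul_assoc, ← mul_assoc] at h1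
    rw [zpow_neg, zpow_natCast, ← Units.val_pow_eq_pow_val, Units.inv_mul, one_mul] at h1
    refine h1.congr_fun fun m => ?_
    simp only [comp_apply, hinj.extend_apply, smul_eq_mul, zpow_neg, zpow_natCast]
    rw [mul_pow, ← pow_mul]
    ring

/-- Precomposition with `(aτ + b)/d` turns period `1` into period `d`. -/
theorem comp_affine_mem {f : ℍ → ℂ} (hf : f ∈ CuspAlg 1) :
    (fun τ => f (affine a b d τ)) ∈ CuspAlg d := by
  obtain ⟨n, c, hc, -⟩ := exists_hasSum (⟨f, hf⟩ : CuspAlg 1)
  exact mem_CuspAlg_of_hasSum (mdifferentiable_comp_affine a b d hf.1) (hasSum_affine a b d hc)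

/-- `f ↦ f ((aτ + b)/d)` as a map `CuspAlg 1 → CuspAlg d`. -/
def compAffine : CuspAlg 1 →ₐ[ℂ] CuspAlg d where
  toFun f := ⟨_, comp_affine_mem a b d f.2⟩
  map_one' := rfl
  map_mul' _ _ := rfl
  map_zero' := rfl
  map_add' _ _ := rfl
  commutes' _ := rfl

/-- The value of `compAffine a b d f` is `f ((a τ + b) / d)`. -/
theorem compAffine_apply (f : CuspAlg 1) (τ : ℍ) :
    (compAffine a b d f : ℍ → ℂ) τ = (f : ℍ → ℂ) (affine a b d τ) := rfl

/-- The expansion of `f ((aτ + b)/d)` is the twisted expansion of `f` with exponents times `a`. -/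
theorem laurentExp_compAffine (f : CuspAlg 1) :
    laurentExp d (compAffine a b d f)
      = ModularCurve.qExpand ℂ a (twist (affineRoot b d) (laurentExp 1 f)) := by
  obtain ⟨n, c, hc, he⟩ := exists_hasSum f
  rw [laurentExp_eq_of_hasSum (compAffine a b d f) (hasSum_affine a b d hc), he, map_mul, map_mul,
    twist_single, ModularCurve.qExpand_single, twist_ofPowerSeries_mk, qExpand_ofPowerSeries_mk,
    mul_one]
  set u := affineRoot b d
  rw [show HahnSeries.single ((a : ℤ) * -(n : ℤ)) ((u ^ (-(n : ℤ)) : ℂˣ) : ℂ)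
      = HahnSeries.single (-((a * n : ℕ) : ℤ)) (1 : ℂ)
        * HahnSeries.C (((u ^ (-(n : ℤ)) : ℂˣ) : ℂ)) by
    rw [HahnSeries.C_apply, HahnSeries.single_mul_single, one_mul, add_zero]
    congr 1
    push_cast
    ring_nf, mul_assoc, ← HahnSeries.ofPowerSeries_C, ← map_mul]
  congr 2
  ext m
  rw [PowerSeries.coeff_C_mul, PowerSeries.coeff_mk, PowerSeries.coeff_mk]
  by_cases hm : ∃ i, a * i = m
  · obtain ⟨i, rfl⟩ := hm
    have hinj : Function.Injective (fun i : ℕ => a * i) :=
      fun x y hxy => Nat.eq_of_mul_eq_mul_left (Nat.pos_of_ne_zero (NeZero.ne a)) hxy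
    rw [hinj.extend_apply, hinj.extend_apply]
  · rw [Function.extend_apply' _ _ _ hm, Function.extend_apply' _ _ _ hm]
    simp

/-- Twisting by `1` is the identity. -/
theorem twist_one (x : LaurentSeries ℂ) : twist (1 : ℂˣ) x = x := by
  ext k; simp

omit [NeZero d] in
/-- The root attached to `b = 0` is `1`. -/
theorem affineRoot_zero : affineRoot 0 d = 1 := by
  ext; simp [affineRoot]

end Affine

/-- `τ ↦ d τ`. -/
def scaleH (d : ℕ) [NeZero d] (τ : ℍ) : ℍ := affine d 0 1 τ

/-- The value of `scaleH d τ` is `d τ`. -/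
theorem coe_scaleH (d : ℕ) [NeZero d] (τ : ℍ) : (scaleH d τ : ℂ) = d * τ := by
  simp [scaleH, coe_affine]

/-- `τ ↦ j (d τ)` in `CuspAlg 1`. -/
def jdC (d : ℕ) [NeZero d] : CuspAlg 1 := compAffine d 0 1 (jC 1)

theorem jdC_apply (d : ℕ) [NeZero d] (τ : ℍ) : (jdC d : ℍ → ℂ) τ = jH (scaleH d τ) := rfl

/-- The expansion of `j (d τ)` is that of `j` in `q ^ d`. -/
theorem laurentExp_jdC (d : ℕ) [NeZero d] :
    laurentExp 1 (jdC d) = ModularCurve.qExpand ℂ d (ModularCurve.jqModC ℂ) := by
  rw [jdC, laurentExp_compAffine, affineRoot_zero, twist_one, laurentExp_jC]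

end Fermat.Agent.ModFun
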