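import Fermat.Agent.ModFun.CuspPlaces
import Fermat.Agent.JacTorsion.CoeffExt
import Fermat.Agent.FF.Bound
import Fermat.Prelude.Def_ModularCurve_ArithmeticGalois

/-!
# Ramification of `j` on `X₀(N)`

Over `ℂ` this is read off from the embeddings attached to the cosets; over `ℚ̄` it follows by
extending places along an embedding `ℚ̄ → ℂ`.
-/

set_option autoImplicit false

noncomputable section

open UpperHalfPlane hiding I
open AlgebraicCurve ModularCurve

attribute [local instance 20000] SubalgebraClass.toAlgebra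

namespace Fermat.Agent.ModFun

/-- `j - j(τ)` vanishes at `τ` to order `3`, `2` or `1` as `j(τ)` is `0`, `1728` or other. -/
theorem ordHol_jSubHol_jH (τ : ℍ) :
    ordHol τ (jSubHol (jH τ)) = if jH τ = 0 then 3 else if jH τ = 1728 then 2 else 1 := by
  split_ifs with ha ha'
  · have h4 := e4_eq_zero_of_jH_eq_zero ha
    rw [ha, ordHol, analyticOrderNatAt]
    have : ((jSubHol 0 : ℍ → ℂ) ∘ ofComplex) = Genus.jH ∘ ofComplex := by
      funext z; simp [jSubHol, genusJ_eq]
    rw [this, Genus.analyticOrderAt_jH_zero h4]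
    rfl
  · have h6 := e6_eq_zero_of_jH_eq ha'
    rw [ha', ordHol, analyticOrderNatAt]
    have : ((jSubHol 1728 : ℍ → ℂ) ∘ ofComplex) = (fun z => Genus.jH z - 1728) ∘ ofComplex := rfl
    rw [this, Genus.analyticOrderAt_jH_sub_1728 h6]
    rfl
  · generalize hb : jH τ = a at ha ha' ⊢
    rw [ordHol, analyticOrderNatAt]
    have : ((jSubHol a : ℍ → ℂ) ∘ ofComplex) = (fun z => Genus.jH z - a) ∘ ofComplex := rfl
    rw [this, Genus.analyticOrderAt_jH_sub ha ha' (τ := τ) hb]
    rfl

variable {N : ℕ} [NeZero N]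

open scoped Classical in
/-- The ramification of `j` above `a` divides `3`, `2` or `1` as `a` is `0`, `1728` or other. -/
theorem ord_jF_sub_dvd (v : Place ℂ (FC N)) (a : ℂ)
    (h : 0 < v.ord (jF N - algebraMap ℂ (FC N) a)) :
    v.ord (jF N - algebraMap ℂ (FC N) a) ∣
      ((if a = 0 then 3 else if a = 1728 then 2 else 1 : ℕ) : ℤ) := by
  obtain ⟨τ₀, hτ₀⟩ := Genus.jH_surjective a
  rw [genusJ_eq] at hτ₀
  subst hτ₀
  obtain ⟨s, -, -, h1, -, -⟩ := places_over_point (N := N) τ₀
  obtain ⟨c, rfl⟩ := (h1 v).mp h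
  set τ := c.out⁻¹ • τ₀ with hτ
  have hj : jH τ = jH τ₀ := jH_smul _ _
  rw [← hj, ← ordHol_jSubHol_jH τ]
  obtain ⟨m, -, hm⟩ := exists_ordMer_eq_mul (N := N) τ
  have hne : jF N - algebraMap ℂ (FC N) (jH τ) ≠ 0 := fun h0 => by
    rw [hj] at h0; rw [h0, Place.ord_zero] at h; exact lt_irrefl _ h
  have h2 := hm _ hne
  rw [map_sub, emb_jF, AlgHom.commutes, toMerH_jC_sub,
    ordMer_algebraMap (jSubHol_ne_zero _)] at h2
  exact ⟨m, by rw [h2, mul_comm]⟩

theorem ord_jF_dvd (v : Place ℂ (FC N)) (h : v.ord (jF N) < 0) :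
    v.ord (jF N) ∣ (N : ℤ) := by
  have hne : jF N ≠ 0 := fun h0 => by rw [h0, Place.ord_zero] at h; exact lt_irrefl _ h
  obtain ⟨c, rfl⟩ := (places_over_infty.1 v).mp fun hmem => by
    have := (FF.mem_iff_ord v hne).mp hmem
    omega
  obtain ⟨m, -, hm, -⟩ := exists_order_eq_mul (N := N) c
  rw [places_over_infty.2.2 c, Int.neg_dvd]
  exact ⟨m, by rw [← hm, mul_comm]⟩

/-- An embedding of `ℚ̄` into `ℂ`. -/
def iotaC : AlgebraicClosure ℚ →+* ℂ :=
  haveI : Algebra.IsAlgebraic ℚ (AlgebraicClosure ℚ) := AlgebraicClosure.isAlgebraic ℚ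
  (IsAlgClosed.lift : AlgebraicClosure ℚ →ₐ[ℚ] ℂ).toRingHom

omit [NeZero N] in
/-- The complexification of the function field over `ℚ̄` is the complex function field. -/
theorem cExt_bar : JacTorsion.cExt iotaC (modularFunctionFieldBar N) = FC N :=
  (JacTorsion.cExt_laurentBaseChange _).trans (laurentBaseChange_eq_fullC N ℂ)

/-- A place of the `ℚ̄`-model is dominated by a place of the complex one, with the same orders
on `j - a` for algebraic `a`. -/
theorem exists_place_over_bar (P : Place (AlgebraicClosure ℚ) (modularFunctionFieldBar N)) :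
    ∃ v : Place ℂ (FC N), v.ord (jF N) = P.ord (jBase N (AlgebraicClosure ℚ)) ∧
      ∀ a, v.ord (jF N - algebraMap ℂ (FC N) (iotaC a))
        = P.ord (jBase N (AlgebraicClosure ℚ) - algebraMap _ _ a) := by
  have : Module.Finite (AlgebraicClosure ℚ) P.ResidueField := FF.finite_residueField P
  obtain ⟨w, hw⟩ := JacTorsion.exists_place_over
    (JacTorsion.cScalarExt iotaC (modularFunctionFieldBar N)) P
    (JacTorsion.residueConst_of_finite P)
  have hj : coeffMap iotaC (jqModC (AlgebraicClosure ℚ)) = jqModC ℂ := coeffMap_jqModC _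
  have key : ∀ (E : IntermediateField ℂ (LaurentSeries ℂ)) (hE : E = FC N) (w : Place ℂ E)
      (x : E), (x : LaurentSeries ℂ) = jqModC ℂ →
      ∃ v : Place ℂ (FC N), v.ord (jF N) = w.ord x ∧ ∀ a : ℂ,
        v.ord (jF N - algebraMap ℂ (FC N) a) = w.ord (x - algebraMap ℂ E a) := by
    rintro E rfl w x hx
    obtain rfl : x = jF N := Subtype.ext (hx.trans coe_jF.symm)
    exact ⟨w, rfl, fun a => rfl⟩
  obtain ⟨v, h1, h2⟩ := key _ cExt_bar w (JacTorsion.cEmb iotaC _ (jBase N _))
    (by rw [JacTorsion.coe_cEmb, coe_jBase, hj])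
  refine ⟨v, h1.trans (hw _), fun a => ?_⟩
  rw [h2, ← hw]
  congr 1
  rw [JacTorsion.cScalarExt_emb, map_sub, JacTorsion.cEmb_algebraMap]

open scoped Classical in
/-- The ramification index of `j` over a finite `a` divides `3`, `2` or `1`. -/
theorem ord_jBase_sub_dvd (P : Place (AlgebraicClosure ℚ) (modularFunctionFieldBar N))
    (a : AlgebraicClosure ℚ)
    (h : 0 < P.ord (jBase N (AlgebraicClosure ℚ) - algebraMap _ _ a)) :
    P.ord (jBase N (AlgebraicClosure ℚ) - algebraMap _ _ a) ∣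
      ((if a = 0 then 3 else if a = 1728 then 2 else 1 : ℕ) : ℤ) := by
  obtain ⟨v, -, h2⟩ := exists_place_over_bar P
  have h3 := ord_jF_sub_dvd v (iotaC a) (by rw [h2]; exact h)
  rw [h2] at h3
  have e1 : (iotaC a = 1728) ↔ a = 1728 := by
    rw [show (1728 : ℂ) = iotaC 1728 from (map_ofNat iotaC 1728).symm]
    exact iotaC.injective.eq_iff
  simpa only [map_eq_zero_iff iotaC iotaC.injective, e1] using h3

/-- The ramification index of `j` over `∞` divides the level. -/
theorem ord_jBase_dvd (P : Place (AlgebraicClosure ℚ) (modularFunctionFieldBar N))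
    (h : P.ord (jBase N (AlgebraicClosure ℚ)) < 0) :
    P.ord (jBase N (AlgebraicClosure ℚ)) ∣ (N : ℤ) := by
  obtain ⟨v, h1, -⟩ := exists_place_over_bar P
  rw [← h1] at h ⊢
  exact ord_jF_dvd v h

end Fermat.Agent.ModFun
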