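import Fermat.Agent.ModFun.Embed
import Fermat.Agent.Igusa.LaurentExt
import Fermat.Prelude.Def_ModularCurve_ArithmeticGalois
import Mathlib.LinearAlgebra.FreeModule.Finite.Matrix

/-!
# The degree of the function field over `K(j)` in characteristic zero
-/

set_option autoImplicit false

noncomputable section

open Polynomial IntermediateField ModularCurve
open scoped MatrixGroups

namespace Fermat.Agent.ModFun

attribute [-instance] IsScalarTower.of_algHom

variable {N : ℕ} [NeZero N]

/-- `j` is transcendental in the complex function field. -/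
theorem transcendental_jF : Transcendental ℂ (jF N) := by
  intro h
  obtain ⟨P, hP, h0⟩ := h
  refine hP (evJ_injective (N := N) (toFC_injective ?_))
  rw [map_zero, map_zero, evJ, ← Polynomial.aeval_algHom_apply]
  exact h0

theorem eval₂_jF_jNF_eq_zero : ∃ Q : Polynomial ℂ[X], Q.Monic ∧
    Q.natDegree = Nat.card (Coset N) ∧
    Q.eval₂ (Polynomial.aeval (jF N)).toRingHom (jNF N) = 0 := by
  obtain ⟨Q, hm, hd, -, h⟩ := exists_charPoly (jd (dvd_refl N))
  refine ⟨Q, hm, hd, ?_⟩
  have h1 := congrArg (toFC N).toRingHom h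
  rw [map_zero, Polynomial.hom_eval₂] at h1
  convert h1 using 2
  · refine RingHom.ext fun P => ?_
    exact (Polynomial.aeval_algHom_apply (toFC N) _ P)
  · rfl

theorem adjoin_jF_jNF : IntermediateField.adjoin ℂ ({jF N, jNF N} : Set (FC N)) = ⊤ := by
  apply IntermediateField.lift_injective (FC N)
  rw [IntermediateField.lift_adjoin, IntermediateField.lift_top, Set.image_pair, coe_jF, coe_jNF]
  exact fullC_eq_fieldC.symm

theorem emb_eq_on_adjoin (c c' : Coset N) (x : ℂ⟮jF N⟯) :
    emb N c (x : FC N) = emb N c' (x : FC N) := by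
  obtain ⟨r, t, hrt⟩ := (IntermediateField.mem_adjoin_simple_iff ℂ _).mp x.2
  rw [hrt, map_div₀, map_div₀, ← Polynomial.aeval_algHom_apply, ← Polynomial.aeval_algHom_apply,
    ← Polynomial.aeval_algHom_apply, ← Polynomial.aeval_algHom_apply, emb_jF, emb_jF]

/-- The degree over `ℂ(j)`. -/
theorem finrank_adjoin_jF :
    FiniteDimensional ℂ⟮jF N⟯ (FC N) ∧
      Module.finrank ℂ⟮jF N⟯ (FC N) = Nat.card (Coset N) := by
  set L := ℂ⟮jF N⟯ with hL
  obtain ⟨Q, hQm, hQd, hQ⟩ := eval₂_jF_jNF_eq_zero (N := N)
  let ι : ℂ[X] →+* L :=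
    (Polynomial.aeval (R := ℂ) (⟨jF N, mem_adjoin_simple_self ℂ _⟩ : L)).toRingHom
  have hι : (algebraMap L (FC N)).comp ι = (Polynomial.aeval (jF N)).toRingHom := by
    refine RingHom.ext fun P => ?_
    exact (Polynomial.aeval_algHom_apply (IsScalarTower.toAlgHom ℂ L (FC N)) _ P).symm
  have hroot : Polynomial.aeval (jNF N) (Q.map ι) = 0 := by
    rw [Polynomial.aeval_def, Polynomial.eval₂_map, hι]
    exact hQ
  have hint : IsIntegral L (jNF N) := ⟨Q.map ι, hQm.map ι, hroot⟩
  have htop : L⟮jNF N⟯ = ⊤ := by
    apply IntermediateField.restrictScalars_injective ℂ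
    rw [hL, IntermediateField.adjoin_simple_adjoin_simple, IntermediateField.restrictScalars_top,
      adjoin_jF_jNF]
  have hfin : FiniteDimensional L (FC N) := by
    have := IntermediateField.adjoin.finiteDimensional hint
    rw [htop] at this
    exact Module.Finite.equiv (IntermediateField.topEquiv (F := L) (E := FC N)).toLinearEquiv
  refine ⟨hfin, le_antisymm ?_ ?_⟩
  · rw [← IntermediateField.finrank_top', ← htop, IntermediateField.adjoin.finrank hint]
    refine (Polynomial.natDegree_le_of_dvd (minpoly.dvd L _ hroot)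
      (hQm.map ι).ne_zero).trans ?_
    exact Polynomial.natDegree_map_le.trans hQd.le
  · let : Algebra L MerH :=
      ((emb N ((1 : SL(2, ℤ)) : Coset N)).toRingHom.comp (algebraMap L (FC N))).toAlgebra
    let ψ : Coset N → (FC N →ₐ[L] MerH) := fun c =>
      { (emb N c).toRingHom with commutes' := fun x => emb_eq_on_adjoin c _ x }
    have hψ : Function.Injective ψ := fun a b h =>
      emb_injective (AlgHom.ext fun x => DFunLike.congr_fun h x)
    have : Finite (FC N →ₐ[L] MerH) := Finite.of_fintype _
    have : Module.Free L (FC N) := Module.Free.of_divisionRing L (FC N)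
    exact (Nat.card_le_card_of_injective ψ hψ).trans (card_algHom_le_finrank L (FC N) MerH)

/-- The powers of a transcendental element are linearly independent. -/
theorem linearIndependent_pow_of_transcendental {F E : Type*} [CommRing F] [CommRing E]
    [Algebra F E] {y : E} (hy : Transcendental F y) : LinearIndependent F (fun i : ℕ => y ^ i) := by
  simpa [Function.comp_def, Polynomial.monomial_one_right_eq_X_pow] using
    (Polynomial.basisMonomials F).linearIndependent.map' (Polynomial.aeval y).toLinearMap
      (LinearMap.ker_eq_bot.mpr (transcendental_iff_injective.mp hy))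

theorem isAlgebraic_liftK {y : LaurentSeries ℚ} (g : Hol N)
    (hy : Igusa.liftK ℚ ℂ y = qExp N g) :
    IsAlgebraic (IntermediateField.adjoin ℚ ({jqModC ℚ} : Set (LaurentSeries ℚ))) y := by
  obtain ⟨Q, hQm, -, -, hQ⟩ := exists_charPoly g
  set n := Q.natDegree
  by_contra hcon
  have hind : LinearIndependent (IntermediateField.adjoin ℚ ({jqModC ℚ} : Set (LaurentSeries ℚ)))
      (fun i : Fin (n + 1) => y ^ (i : ℕ)) :=
    (linearIndependent_pow_of_transcendental hcon).comp _ Fin.val_injective
  have h2 : Igusa.PolyIndep (jqModC ℂ) (fun i : Fin (n + 1) => qExp N g ^ (i : ℕ)) := by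
    have h3 := ((Igusa.polyIndep_iff_linearIndependent
      (Igusa.aeval_jqModC_injective (k := ℚ))).mpr hind).liftK (K := ℂ)
    rw [Igusa.liftK_jqModC] at h3
    simpa only [map_pow, hy] using h3
  have h4 := Igusa.polyIndep_iff.mp h2 (fun i => Q.coeff (i : ℕ)) ?_
  · have h5 := congrFun h4 (Fin.last n)
    simp only [Fin.val_last, Pi.zero_apply] at h5
    exact one_ne_zero (hQm.coeff_natDegree.symm.trans h5)
  · have h6 := congrArg (qExp N) hQ
    rw [Polynomial.eval₂_eq_sum_range, map_sum, map_zero] at h6
    rw [Fin.sum_univ_eq_sum_range (fun i => Polynomial.aeval (jqModC ℂ) (Q.coeff i) * qExp N g ^ i)]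
    rw [← h6]
    refine Finset.sum_congr rfl fun i _ => ?_
    rw [map_mul, map_pow, ← qExp_evJ (N := N)]
    rfl

variable (N)

/-- There are finitely many generators `j (d τ)`. -/
theorem finite_divisorExpansionsC (K : Type*) [Field K] :
    (divisorExpansionsC K N).Finite := by
  refine (N.divisors.finite_toSet.image fun d : ℕ =>
    if h : d = 0 then (0 : LaurentSeries K)
    else haveI : NeZero d := ⟨h⟩; qExpand K d (jqModC K)).subset ?_
  rintro x ⟨d, hd, hdN, rfl⟩
  exact ⟨d, by simpa using ⟨hdN, NeZero.ne N⟩, by simp only [dif_neg hd.out]⟩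

theorem finiteDimensional_rat :
    FiniteDimensional (IntermediateField.adjoin ℚ ({jqModC ℚ} : Set (LaurentSeries ℚ)))
      (IntermediateField.adjoin (IntermediateField.adjoin ℚ ({jqModC ℚ} : Set (LaurentSeries ℚ)))
        (divisorExpansionsC ℚ N)) := by
  have := (finite_divisorExpansionsC N ℚ).to_subtype
  refine IntermediateField.finiteDimensional_adjoin fun x hx => ?_
  obtain ⟨d, hd, hdN, rfl⟩ := hx
  refine (isAlgebraic_liftK (jd hdN) ?_).isIntegral
  rw [qExp_jd, Igusa.liftK, coeffMap_qExpand, coeffMap_jqModC]

variable (K : Type*) [Field K] [CharZero K]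

/-- `j` in the function field over `K`. -/
def jK : modularFunctionFieldFullC K N := ⟨jqModC K, jqModC_mem_full K N⟩

omit [CharZero K] in
omit [NeZero N] in
/-- Adjoining the `j_d` to `K(j)` gives the function field. -/
theorem adjoin_adjoin_eq :
    (IntermediateField.adjoin (IntermediateField.adjoin K ({jqModC K} : Set (LaurentSeries K)))
      (divisorExpansionsC K N)).restrictScalars K = modularFunctionFieldFullC K N := by
  rw [IntermediateField.adjoin_adjoin_left, modularFunctionFieldFullC]
  congr 1
  rw [Set.union_eq_right, Set.singleton_subset_iff]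
  have := mem_divisorExpansionsC K N (one_dvd N)
  rwa [qExpand_one_apply] at this

omit [CharZero K] in
omit [NeZero N] in
theorem lift_adjoin_jK :
    IntermediateField.lift (K⟮jK N K⟯) = IntermediateField.adjoin K {jqModC K} := by
  rw [IntermediateField.lift_adjoin, Set.image_singleton]
  rfl

omit [CharZero K] [NeZero N] in
/-- Finiteness and degree of the function field over `K(j)` agree in the two descriptions of that
extension. -/
theorem transfer_finrank :
    (FiniteDimensional (IntermediateField.adjoin K ({jqModC K} : Set (LaurentSeries K)))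
      (IntermediateField.adjoin (IntermediateField.adjoin K ({jqModC K} : Set (LaurentSeries K)))
        (divisorExpansionsC K N)) ↔ FiniteDimensional K⟮jK N K⟯ (modularFunctionFieldFullC K N)) ∧
    Module.finrank (IntermediateField.adjoin K ({jqModC K} : Set (LaurentSeries K)))
      (IntermediateField.adjoin (IntermediateField.adjoin K ({jqModC K} : Set (LaurentSeries K)))
        (divisorExpansionsC K N)) =
      Module.finrank K⟮jK N K⟯ (modularFunctionFieldFullC K N) := by
  set B := IntermediateField.adjoin K ({jqModC K} : Set (LaurentSeries K))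
  set E := IntermediateField.adjoin B (divisorExpansionsC K N)
  have hBle : ∀ b : LaurentSeries K, b ∈ B → b ∈ modularFunctionFieldFullC K N := fun b hb =>
    (IntermediateField.adjoin_le_iff.mpr
      (Set.singleton_subset_iff.mpr (jqModC_mem_full K N))) hb
  have hBmem : ∀ b : B, (⟨(b : LaurentSeries K), hBle _ b.2⟩ : modularFunctionFieldFullC K N)
      ∈ K⟮jK N K⟯ := by
    intro b
    apply (IntermediateField.mem_lift _).mp
    rw [lift_adjoin_jK]
    exact b.2
  have hCmem : ∀ x : K⟮jK N K⟯, ((x : modularFunctionFieldFullC K N) : LaurentSeries K) ∈ B := by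
    intro x
    have h := (IntermediateField.mem_lift (x : modularFunctionFieldFullC K N)).mpr x.2
    rwa [lift_adjoin_jK] at h
  let i : B ≃+* K⟮jK N K⟯ :=
    { toFun := fun b => ⟨⟨b, hBle _ b.2⟩, hBmem b⟩
      invFun := fun x => ⟨_, hCmem x⟩
      left_inv := fun _ => rfl
      right_inv := fun _ => rfl
      map_mul' := fun _ _ => rfl
      map_add' := fun _ _ => rfl }
  let j : E ≃+* modularFunctionFieldFullC K N :=
    (IntermediateField.equivOfEq (adjoin_adjoin_eq N K)).toRingEquiv
  have hi : ∀ b : B, ((i b : modularFunctionFieldFullC K N) : LaurentSeries K) = b := fun _ => rfl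
  have hc : (algebraMap K⟮jK N K⟯ (modularFunctionFieldFullC K N)).comp i.toRingHom
      = j.toRingHom.comp (algebraMap B E) :=
    RingHom.ext fun b => Subtype.ext (hi b)
  exact ⟨⟨fun h => Module.Finite.of_equiv_equiv i j hc,
    fun h => Module.Finite.of_equiv_equiv i.symm j.symm (RingHom.ext fun b => j.injective (by
      have := RingHom.congr_fun hc (i.symm b)
      simp only [RingHom.comp_apply, RingEquiv.toRingHom_eq_coe, RingHom.coe_coe,
        RingEquiv.apply_symm_apply] at this ⊢
      exact this.symm))⟩, Algebra.finrank_eq_of_equiv_equiv i j hc⟩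

/-- **Degree of `X₀(N)` over the `j`-line.** -/
theorem finrank_fullC :
    FiniteDimensional K⟮jK N K⟯ (modularFunctionFieldFullC K N) ∧
      Module.finrank K⟮jK N K⟯ (modularFunctionFieldFullC K N) = Nat.card (Coset N) := by
  have := finiteDimensional_rat N
  have key : ∀ (L : Type) [Field L] [CharZero L],
      FiniteDimensional L⟮jK N L⟯ (modularFunctionFieldFullC L N) ∧
      Module.finrank L⟮jK N L⟯ (modularFunctionFieldFullC L N)
        = Module.finrank (IntermediateField.adjoin ℚ ({jqModC ℚ} : Set (LaurentSeries ℚ)))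
          (IntermediateField.adjoin
            (IntermediateField.adjoin ℚ ({jqModC ℚ} : Set (LaurentSeries ℚ)))
            (divisorExpansionsC ℚ N)) := by
    intro L _ _
    have h := Igusa.finrank_adjoin_liftK L (Igusa.aeval_jqModC_injective (k := ℚ))
      (by rw [Igusa.liftK_jqModC]; exact Igusa.aeval_jqModC_injective) (divisorExpansionsC ℚ N)
    rw [Igusa.liftK_jqModC, Igusa.liftK_divisorExpansionsC] at h
    exact ⟨(transfer_finrank N L).1.mp h.1, (transfer_finrank N L).2.symm.trans h.2⟩
  have hC : Module.finrank ℂ⟮jK N ℂ⟯ (modularFunctionFieldFullC ℂ N) = Nat.card (Coset N) := by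
    have hjk : jK N ℂ = jF N := Subtype.ext coe_jF.symm
    rw [hjk]
    exact finrank_adjoin_jF.2
  have h := Igusa.finrank_adjoin_liftK K (Igusa.aeval_jqModC_injective (k := ℚ))
    (by rw [Igusa.liftK_jqModC]; exact Igusa.aeval_jqModC_injective) (divisorExpansionsC ℚ N)
  rw [Igusa.liftK_jqModC, Igusa.liftK_divisorExpansionsC] at h
  refine ⟨(transfer_finrank N K).1.mp h.1, ?_⟩
  rw [← hC, (key ℂ).2]
  exact (transfer_finrank N K).2.symm.trans h.2

end Fermat.Agent.ModFun
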