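import Fermat.Agent.ModFun.AtkinLehner
import Fermat.Agent.FF.HeckeInputsX0
import Mathlib.LinearAlgebra.Charpoly.ToMatrix

/-!
# The Hecke correspondence at a prime `ℓ ∤ N`: the degrees of the degeneracy maps
-/

set_option autoImplicit false

noncomputable section

open Polynomial AlgebraicCurve ModularCurve IntermediateField

namespace Fermat.Agent.ModFun

section Charpoly

variable {F E M : Type*} [Field F] [Field E] [Field M] [Algebra F E] [FiniteDimensional F E]
  [Algebra F M]

/-- If there are `[E : F]` embeddings into `M`, they give all roots of the characteristic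
polynomial of a multiplication. -/
theorem charpoly_map_eq_prod_of_card {σ : Type*} [Fintype σ] (φ : σ → (E →ₐ[F] M))
    (hφ : Function.Injective φ) (hcard : Fintype.card σ = Module.finrank F E) (x : E) :
    (Algebra.lmul F E x).charpoly.map (algebraMap F M)
      = ∏ s : σ, (X - C (φ s x)) := by
  classical
  let b : Module.Basis σ F E :=
    (Module.finBasis F E).reindex (Fintype.equivFinOfCardEq hcard).symm
  set A : Matrix σ σ F := LinearMap.toMatrix b b (Algebra.lmul F E x) with hA
  let P : Matrix σ σ M := Matrix.of fun s i => φ s (b i)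
  -- The matrix of embeddings on a basis is invertible, by Dedekind's lemma.
  have hP : IsUnit P.det := by
    rw [isUnit_iff_ne_zero]
    intro h0
    obtain ⟨v, hv, hv0⟩ := Matrix.exists_vecMul_eq_zero_iff.mpr h0
    have hli : LinearIndependent M fun s => ⇑((φ s).toRingHom.toMonoidHom) :=
      (linearIndependent_monoidHom E M).comp (fun s => (φ s).toRingHom.toMonoidHom)
        fun s t hst => hφ (AlgHom.ext fun y => DFunLike.congr_fun hst y)
    rw [Fintype.linearIndependent_iff] at hli
    refine hv (funext fun s => hli v (funext fun y => ?_) s)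
    rw [Finset.sum_apply, Pi.zero_apply]
    simp only [Pi.smul_apply, smul_eq_mul]
    show ∑ s, v s * φ s y = 0
    rw [← b.sum_repr y]
    simp only [map_sum, map_smul, Finset.mul_sum]
    rw [Finset.sum_comm]
    refine Finset.sum_eq_zero fun i _ => ?_
    have h1 := congrFun hv0 i
    simp only [Matrix.vecMul, dotProduct, P, Matrix.of_apply, Pi.zero_apply] at h1
    rw [← mul_zero (algebraMap F M ((b.repr y) i)), ← h1, Finset.mul_sum]
    refine Finset.sum_congr rfl fun s _ => ?_
    rw [Algebra.smul_def]
    ring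
  -- It conjugates the multiplication matrix to the diagonal one.
  have hconj : P * A.map (algebraMap F M) = Matrix.diagonal (fun s => φ s x) * P := by
    ext s j
    rw [Matrix.diagonal_mul, Matrix.mul_apply]
    simp only [P, Matrix.of_apply, Matrix.map_apply, hA, LinearMap.toMatrix_apply]
    rw [← map_mul]
    conv_rhs => rw [show x * b j = ∑ i, b.repr (x * b j) i • b i from (b.sum_repr _).symm,
      map_sum]
    refine Finset.sum_congr rfl fun i _ => ?_
    rw [map_smul, Algebra.smul_def, mul_comm]
    rfl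
  rw [← LinearMap.charpoly_toMatrix (Algebra.lmul F E x) b, ← hA, ← Matrix.charpoly_map,
    ← Matrix.charpoly_diagonal (fun s => φ s x)]
  let U : (Matrix σ σ M)ˣ := Matrix.nonsingInvUnit P hP
  have : A.map (algebraMap F M) = (U⁻¹).val * Matrix.diagonal (fun s => φ s x) * U.val := by
    rw [mul_assoc]
    show _ = (U⁻¹).val * (Matrix.diagonal (fun s => φ s x) * P)
    rw [← hconj, ← mul_assoc]
    show _ = ((U⁻¹).val * U.val) * _
    rw [Units.inv_mul, one_mul]
  rw [this, Matrix.coe_units_inv, Matrix.charpoly_units_conj']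

end Charpoly

section Hecke

variable {L : Type*} [Field L] [Algebra ℚ L] (ι : L →+* ℂ) {N ℓ : ℕ} [NeZero N] [NeZero ℓ]

/-- For a prime `ℓ ∤ N` the degeneracy map `α` has degree `ℓ + 1`. -/
theorem finrankAlong_alpha (hℓ : ℓ.Prime) (hN : ¬ ℓ ∣ N) :
    finrankAlong L (heckeAlphaBar L N ℓ) = ℓ + 1 := by
  have : CharZero L := charZero_of_injective_algebraMap (algebraMap ℚ L).injective
  let := algebraAlong (heckeAlphaBar L N ℓ)
  have := isScalarTower_along (heckeAlphaBar L N ℓ)
  have : FiniteDimensional (laurentBaseChange L (modularFunctionFieldFull N))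
      (laurentBaseChange L (modularFunctionFieldFull (N * ℓ))) :=
    FF.finiteAlong (heckeAlphaBar L N ℓ)
  have h := (FF.finite_and_finrank_adjoin_algebraMap
    (F' := laurentBaseChange L (modularFunctionFieldFull (N * ℓ)))
    (transcendental_jBase N L)).2
  have hj : algebraMap _ (laurentBaseChange L (modularFunctionFieldFull (N * ℓ))) (jBase N L)
      = jBase (N * ℓ) L := Subtype.ext (by
        show (heckeAlphaBar L N ℓ (jBase N L) : LaurentSeries L) = _
        rw [coe_heckeAlphaBar, coe_jBase, coe_jBase])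
  have hψ : dedekindPsi (N * ℓ) = dedekindPsi N * (ℓ + 1) := by
    rw [mul_comm N ℓ, Gamma0.dedekindPsi_mul_of_not_dvd hℓ hN, mul_comm (ℓ + 1)]
  rw [hj, (finrank_baseChange (N * ℓ) L).2, (finrank_baseChange N L).2, hψ] at h
  have hpos : 0 < dedekindPsi N := by
    rw [← natCard_coset]; exact Nat.card_pos
  exact (Nat.eq_of_mul_eq_mul_left hpos h).symm

include ι in
/-- The degree of the second degeneracy map is `ℓ + 1`. -/
theorem finrankAlong_beta (hℓ : ℓ.Prime) (hN : ¬ ℓ ∣ N) :
    finrankAlong L (heckeBetaBar L N ℓ) = ℓ + 1 := by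
  obtain ⟨w, hα, -, -, hi⟩ := exists_alHom ι hℓ (hℓ.coprime_iff_not_dvd.mpr hN).symm
  rw [← finrankAlong_alpha hℓ hN (L := L)]
  exact (@Algebra.finrank_eq_of_equiv_equiv _ _ _ _ (algebraAlong (heckeAlphaBar L N ℓ)) _ _ _ _
    (algebraAlong (heckeBetaBar L N ℓ)) (RingEquiv.refl _)
    { toFun := w, invFun := w, left_inv := hi, right_inv := hi, map_mul' := map_mul w,
      map_add' := map_add w }
    (RingHom.ext fun f => (hα f).symm)).symm

end Hecke

variable {N ℓ : ℕ} [NeZero N] [NeZero ℓ]

/-- Over `ℚ̄`, for a prime `ℓ ∤ N`, the degeneracy map `β` has degree `ℓ + 1`. -/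
theorem finrankAlong_beta_bar (hℓ : ℓ.Prime) (hN : ¬ ℓ ∣ N) :
    finrankAlong (AlgebraicClosure ℚ) (heckeBetaBar (AlgebraicClosure ℚ) N ℓ) = ℓ + 1 :=
  finrankAlong_beta iotaC hℓ hN

end Fermat.Agent.ModFun
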