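import Fermat.Agent.ModFun.Basic
import Fermat.Prelude.Def_ModularCurve_X0
import Mathlib.RingTheory.RootsOfUnity.Complex

/-!
# Characterisation of Laurent expansions by convergent series

These are `mem_CuspAlg_of_hasSum`, `laurentExp_eq_of_hasSum` and `exists_hasSum`; `laurentExp_mul`
changes the width.
-/

set_option autoImplicit false

noncomputable section

open UpperHalfPlane hiding I
open Function Filter Complex
open scoped Manifold Real

local notation "𝕢" => Periodic.qParam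

namespace Fermat.Agent.ModFun

variable {h : ℕ}

/-! ### The parameter `q` -/

/-- The parameter `exp (2πiτ/h)` as a function on `ℍ`. -/
def qFun (h : ℕ) : ℍ → ℂ := fun τ => 𝕢 (h : ℝ) τ

/-- The primitive `n`-th root of unity `exp (2πi/n)`. -/
def zetaN (n : ℕ) : ℂ := Complex.exp (2 * π * Complex.I / n)

/-- `exp (2πi/n)` is a primitive `n`-th root of unity. -/
theorem isPrimitiveRoot_zetaN (n : ℕ) [NeZero n] : IsPrimitiveRoot (zetaN n) n :=
  Complex.isPrimitiveRoot_exp n (NeZero.ne n)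

/-- The parameter `qFun h` has no zeros. -/
theorem qFun_ne_zero (h : ℕ) (τ : ℍ) : qFun h τ ≠ 0 := Periodic.qParam_ne_zero _

/-- `|exp (2πiτ/h)| = exp (-2π Im τ / h)`. -/
theorem norm_qFun (h : ℕ) (τ : ℍ) : ‖qFun h τ‖ = Real.exp (-2 * π * τ.im / h) := by
  rw [qFun, Periodic.norm_qParam]
  rfl

theorem mdifferentiable_qFun (h : ℕ) : MDiff (qFun h) := by
  rw [UpperHalfPlane.mdifferentiable_iff]
  refine DifferentiableOn.congr (f := fun z : ℂ => 𝕢 (h : ℝ) z) ?_ fun z hz => ?_
  · exact (Periodic.differentiable_qParam (h := (h : ℝ))).differentiableOn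
  · simp [qFun, ofComplex_apply_of_im_pos hz]

theorem perH_qFun [NeZero h] : PerH h (qFun h) := by
  intro τ
  have hh : ((h : ℝ) : ℂ) ≠ 0 := by exact_mod_cast NeZero.ne h
  simp only [qFun, Periodic.qParam, coe_vadd]
  rw [show 2 * (π : ℂ) * I * ((h : ℝ) + (τ : ℂ)) / ((h : ℝ) : ℂ)
      = 2 * (π : ℂ) * I + 2 * (π : ℂ) * I * (τ : ℂ) / ((h : ℝ) : ℂ) by
    field_simp, Complex.exp_add, exp_two_pi_mul_I, one_mul]

theorem isBounded_qFun (h : ℕ) : IsBoundedAtImInfty (qFun h) := by
  refine isBoundedAtImInfty_iff.mpr ⟨1, 0, fun z _ => ?_⟩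
  rw [norm_qFun, Real.exp_le_one_iff]
  have : 0 ≤ 2 * π * z.im / h :=
    div_nonneg (mul_nonneg (mul_nonneg two_pos.le Real.pi_pos.le) z.im_pos.le) (Nat.cast_nonneg _)
  have h2 : -2 * π * z.im / h = -(2 * π * z.im / h) := by ring
  linarith [h2]

theorem qFun_mem_BddAlg [NeZero h] : qFun h ∈ BddAlg h :=
  ⟨mdifferentiable_qFun h, perH_qFun, isBounded_qFun h⟩

/-- A function given by a power series in `qFun h` is bounded, periodic, with that expansion. -/
theorem mem_BddAlg_of_hasSum [NeZero h] {g : ℍ → ℂ} {c : ℕ → ℂ} (hg : MDiff g)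
    (hc : ∀ τ : ℍ, HasSum (fun m : ℕ => c m • qFun h τ ^ m) (g τ)) :
    g ∈ BddAlg h := by
  refine ⟨hg, fun τ => ?_, isBoundedAtImInfty_of_hasSum_qExpansion (cast_pos_of_neZero h) hc⟩
  have h1 := hc ((h : ℝ) +ᵥ τ)
  rw [perH_qFun τ] at h1
  exact h1.unique (hc τ)

/-- A convergent expansion of a bounded function is its `q`-expansion. -/
theorem qExpBdd_eq_of_hasSum [NeZero h] {g : BddAlg h} {c : ℕ → ℂ}
    (hc : ∀ τ : ℍ, HasSum (fun m : ℕ => c m • qFun h τ ^ m) ((g : ℍ → ℂ) τ)) :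
    qExpBdd h g = PowerSeries.mk c := by
  ext m
  have ha := analyticAt_cuspFunction h g.2
  have h1 := (hasFPowerSeriesOnBall_cuspFunction (cast_pos_of_neZero h) ha hc).hasFPowerSeriesAt
  have h2 := congr_arg (FormalMultilinearSeries.coeff · m)
    (ha.hasFPowerSeriesAt.eq_formalMultilinearSeries h1)
  rw [PowerSeries.coeff_mk, qExpBdd_apply, qExpansion_coeff]
  simp only [FormalMultilinearSeries.coeff_ofScalars] at h2
  rw [← h2, div_eq_mul_inv, mul_comm]

/-- The `q`-expansion of a bounded function converges to it. -/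
theorem hasSum_qExpBdd [NeZero h] (g : BddAlg h) (τ : ℍ) :
    HasSum (fun m : ℕ => (qExpBdd h g).coeff m • qFun h τ ^ m) ((g : ℍ → ℂ) τ) :=
  hasSum_qExpansion (cast_pos_of_neZero h) g.2.2.1.periodic_comp_ofComplex g.2.1 g.2.2.2 τ

theorem hasSum_single_one (q : ℂ) :
    HasSum (fun m : ℕ => (if m = 1 then (1 : ℂ) else 0) • q ^ m) q := by
  have : (fun m : ℕ => (if m = 1 then (1 : ℂ) else 0) • q ^ m)
      = fun m : ℕ => if m = 1 then q else 0 := by
    funext m
    rcases eq_or_ne m 1 with rfl | hm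
    · simp
    · simp [hm]
  rw [this]
  exact hasSum_ite_eq 1 q

theorem qExpBdd_qFun [NeZero h] :
    qExpBdd h ⟨qFun h, qFun_mem_BddAlg⟩ = PowerSeries.X := by
  rw [qExpBdd_eq_of_hasSum (g := ⟨qFun h, qFun_mem_BddAlg⟩)
    (c := fun m => if m = 1 then (1 : ℂ) else 0) (fun τ => hasSum_single_one (qFun h τ))]
  ext m
  simp [PowerSeries.coeff_X]

/-- `qFun h` as an element of `CuspAlg h`. -/
def qFunC (h : ℕ) [NeZero h] : CuspAlg h := ⟨qFun h, BddAlg_le_CuspAlg h qFun_mem_BddAlg⟩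

/-- The expansion of `q` is `q`. -/
theorem laurentExp_qFunC [NeZero h] : laurentExp h (qFunC h) = HahnSeries.single (1 : ℤ) 1 := by
  have h1 := laurentExp_of_bdd h (⟨qFun h, qFun_mem_BddAlg⟩ : BddAlg h)
  rw [qExpBdd_qFun, HahnSeries.ofPowerSeries_X] at h1
  exact h1

/-- The discriminant is `O(exp (-2π Im τ))` at `∞`. -/
theorem isBigO_discriminant_exp :
    ModularForm.discriminant =O[atImInfty] fun τ : ℍ => Real.exp (-2 * π * τ.im) := by
  have := CuspFormClass.exp_decay_atImInfty (h := (1 : ℝ)) CuspForm.discriminant one_pos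
    one_mem_strictPeriods_SL
  simpa using this

theorem meroAtInfty_qFun_inv (h : ℕ) [NeZero h] :
    MeroAtInfty (fun τ => (qFun h τ)⁻¹) := by
  obtain ⟨C, hC⟩ := isBigO_discriminant_exp.bound
  refine ⟨1, ?_⟩
  refine Asymptotics.IsBigO.of_bound C ?_
  filter_upwards [hC] with τ hτ
  simp only [pow_one, Pi.mul_apply, norm_mul, norm_inv, Pi.one_apply, norm_one, mul_one]
  rw [norm_qFun, ← Real.exp_neg]
  rw [Real.norm_of_nonneg (Real.exp_pos _).le] at hτ
  have hC0 : 0 ≤ C := by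
    by_contra hneg
    push Not at hneg
    nlinarith [norm_nonneg (ModularForm.discriminant τ), Real.exp_pos (-2 * π * τ.im)]
  calc ‖ModularForm.discriminant τ‖ * Real.exp (-(-2 * π * τ.im / h))
      ≤ C * Real.exp (-2 * π * τ.im) * Real.exp (-(-2 * π * τ.im / h)) :=
        mul_le_mul_of_nonneg_right hτ (Real.exp_pos _).le
    _ ≤ C * 1 := by
        rw [mul_assoc, ← Real.exp_add]
        refine mul_le_mul_of_nonneg_left (Real.exp_le_one_iff.mpr ?_) hC0
        have h1 : (1 : ℝ) ≤ h := by exact_mod_cast Nat.one_le_iff_ne_zero.mpr (NeZero.ne h)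
        have h2 : 2 * π * τ.im / h ≤ 2 * π * τ.im :=
          div_le_self (mul_nonneg (mul_nonneg two_pos.le Real.pi_pos.le) τ.im_pos.le) h1
        have h3 : -(-2 * π * τ.im / h) = 2 * π * τ.im / h := by ring
        linarith [h2, h3]
    _ = C := mul_one C

theorem qFun_inv_mem_CuspAlg (h : ℕ) [NeZero h] :
    (fun τ => (qFun h τ)⁻¹) ∈ CuspAlg h := by
  refine ⟨?_, fun τ => by simp [perH_qFun τ], meroAtInfty_qFun_inv h⟩
  rw [UpperHalfPlane.mdifferentiable_iff]
  have h1 := UpperHalfPlane.mdifferentiable_iff.mp (mdifferentiable_qFun h)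
  exact h1.inv fun z _ => qFun_ne_zero h _

/-- The inverse of `qFun h` as an element of `CuspAlg h`. -/
def qInvC (h : ℕ) [NeZero h] : CuspAlg h := ⟨_, qFun_inv_mem_CuspAlg h⟩

theorem qFunC_mul_qInvC [NeZero h] : qFunC h * qInvC h = 1 :=
  Subtype.ext (funext fun τ => mul_inv_cancel₀ (qFun_ne_zero h τ))

/-- The expansion of `q⁻¹` is `q⁻¹`. -/
theorem laurentExp_qInvC [NeZero h] : laurentExp h (qInvC h) = HahnSeries.single (-1 : ℤ) 1 := by
  have h1 : laurentExp h (qFunC h) * laurentExp h (qInvC h) = 1 := by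
    rw [← map_mul, qFunC_mul_qInvC, map_one]
  rw [laurentExp_qFunC] at h1
  have h2 : (HahnSeries.single (-1 : ℤ) (1 : ℂ)) * HahnSeries.single (1 : ℤ) 1 = 1 := by
    rw [HahnSeries.single_mul_single]; simp
  calc laurentExp h (qInvC h)
      = (HahnSeries.single (-1 : ℤ) (1 : ℂ) * HahnSeries.single (1 : ℤ) 1)
        * laurentExp h (qInvC h) := by rw [h2, one_mul]
    _ = HahnSeries.single (-1 : ℤ) 1 := by rw [mul_assoc, h1, mul_one]

theorem laurentExp_qInvC_pow [NeZero h] (n : ℕ) :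
    laurentExp h (qInvC h ^ n) = HahnSeries.single (-(n : ℤ)) 1 := by
  rw [map_pow, laurentExp_qInvC, HahnSeries.single_pow, one_pow]
  congr 1
  simp

/-! ### Functions given by series -/

section Char

variable [NeZero h]

theorem eq_qInvC_pow_mul (f g : ℍ → ℂ) (n : ℕ) (hfg : ∀ τ, g τ = qFun h τ ^ n * f τ) :
    f = (qInvC h ^ n : CuspAlg h) * g := by
  funext τ
  have : ((qInvC h ^ n : CuspAlg h) : ℍ → ℂ) τ = (qFun h τ)⁻¹ ^ n := by simp [qInvC]
  rw [Pi.mul_apply, this, hfg τ, ← mul_assoc, ← mul_pow, inv_mul_cancel₀ (qFun_ne_zero h τ),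
    one_pow, one_mul]

/-- A holomorphic function with a convergent Laurent series in `q` lies in `CuspAlg`. -/
theorem mem_CuspAlg_of_hasSum {f : ℍ → ℂ} {n : ℕ} {c : ℕ → ℂ} (hf : MDiff f)
    (hc : ∀ τ : ℍ, HasSum (fun m : ℕ => c m • qFun h τ ^ m) (qFun h τ ^ n * f τ)) :
    f ∈ CuspAlg h := by
  have hg : (qFun h ^ n * f) ∈ BddAlg h :=
    mem_BddAlg_of_hasSum ((mdifferentiable_pow (mdifferentiable_qFun h) n).mul hf) hc
  rw [eq_qInvC_pow_mul f (qFun h ^ n * f) n fun τ => rfl]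
  exact Subalgebra.mul_mem _ (qInvC h ^ n).2 (BddAlg_le_CuspAlg h hg)

/-- A convergent Laurent series in `q` is the expansion. -/
theorem laurentExp_eq_of_hasSum (f : CuspAlg h) {n : ℕ} {c : ℕ → ℂ}
    (hc : ∀ τ : ℍ, HasSum (fun m : ℕ => c m • qFun h τ ^ m) (qFun h τ ^ n * (f : ℍ → ℂ) τ)) :
    laurentExp h f = HahnSeries.single (-(n : ℤ)) 1
      * HahnSeries.ofPowerSeries ℤ ℂ (PowerSeries.mk c) := by
  have hg : (qFun h ^ n * (f : ℍ → ℂ)) ∈ BddAlg h :=
    mem_BddAlg_of_hasSum ((mdifferentiable_pow (mdifferentiable_qFun h) n).mul f.2.1) hc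
  have h1 : f = qInvC h ^ n * Subalgebra.inclusion (BddAlg_le_CuspAlg h) ⟨_, hg⟩ := by
    apply Subtype.ext
    rw [Subalgebra.coe_mul]
    exact eq_qInvC_pow_mul _ _ n fun τ => rfl
  rw [h1, map_mul, laurentExp_qInvC_pow, laurentExp_of_bdd,
    qExpBdd_eq_of_hasSum (g := ⟨_, hg⟩) hc]

/-- Every expansion is a convergent Laurent series in `q`. -/
theorem exists_hasSum (f : CuspAlg h) : ∃ (n : ℕ) (c : ℕ → ℂ),
    (∀ τ : ℍ, HasSum (fun m : ℕ => c m • qFun h τ ^ m) (qFun h τ ^ n * (f : ℍ → ℂ) τ)) ∧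
    laurentExp h f = HahnSeries.single (-(n : ℤ)) 1
      * HahnSeries.ofPowerSeries ℤ ℂ (PowerSeries.mk c) := by
  obtain ⟨m, hm⟩ := f.2.2.2
  have hb : IsBoundedAtImInfty (qFun h ^ (h * m) * (f : ℍ → ℂ)) := by
    have h1 : (fun τ => qFun 1 τ / ModularForm.discriminant τ)
        =O[atImInfty] (1 : ℍ → ℝ) := by
      obtain ⟨C, hC⟩ := ModularForm.exp_isBigO_discriminant.bound
      refine Asymptotics.IsBigO.of_bound C ?_
      filter_upwards [hC] with τ hτ
      rw [norm_div, norm_qFun, Pi.one_apply, norm_one, mul_one,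
        div_le_iff₀ (norm_pos_iff.mpr (ModularForm.discriminant_ne_zero τ))]
      rw [Real.norm_of_nonneg (Real.exp_pos _).le] at hτ
      simpa using hτ
    have h2 : qFun h ^ (h * m) * (f : ℍ → ℂ)
        = (fun τ => qFun 1 τ / ModularForm.discriminant τ) ^ m
          * (ModularForm.discriminant ^ m * (f : ℍ → ℂ)) := by
      funext τ
      have h3 : qFun h τ ^ h = qFun 1 τ := by
        have hh : ((h : ℝ) : ℂ) ≠ 0 := by exact_mod_cast NeZero.ne h
        simp only [qFun, Periodic.qParam, ← Complex.exp_nat_mul, Nat.cast_one, Complex.ofReal_one]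
        congr 1
        push_cast at hh ⊢
        field_simp
      simp only [Pi.mul_apply, Pi.pow_apply, pow_mul, h3, div_pow]
      rw [← mul_assoc, div_mul_cancel₀ _ (pow_ne_zero _ (ModularForm.discriminant_ne_zero τ))]
    rw [h2]
    exact isBounded_mul (isBounded_pow h1 m) hm
  have hg : qFun h ^ (h * m) * (f : ℍ → ℂ) ∈ BddAlg h :=
    ⟨(mdifferentiable_pow (mdifferentiable_qFun h) _).mul f.2.1,
      fun τ => by simp [perH_qFun τ, f.2.2.1 τ], hb⟩
  have hs := hasSum_qExpBdd (⟨_, hg⟩ : BddAlg h)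
  exact ⟨h * m, _, hs, laurentExp_eq_of_hasSum f hs⟩

theorem coeff_single_mul_ofPowerSeries (n : ℕ) (c : ℕ → ℂ) (k : ℕ) :
    (HahnSeries.single (-(n : ℤ)) (1 : ℂ)
      * HahnSeries.ofPowerSeries ℤ ℂ (PowerSeries.mk c)).coeff ((k : ℤ) - n) = c k := by
  rw [HahnSeries.coeff_single_mul, one_mul, sub_neg_eq_add, sub_add_cancel,
    HahnSeries.ofPowerSeries_apply_coeff, PowerSeries.coeff_mk]

/-- A function without polar coefficients is bounded at infinity. -/
theorem isBounded_of_coeff_neg {f : CuspAlg h}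
    (hf : ∀ k : ℤ, k < 0 → (laurentExp h f).coeff k = 0) :
    IsBoundedAtImInfty (f : ℍ → ℂ) := by
  obtain ⟨n, c, hc, he⟩ := exists_hasSum f
  have h0 : ∀ k, k < n → c k = 0 := by
    intro k hk
    have := hf ((k : ℤ) - n) (by omega)
    rwa [he, coeff_single_mul_ofPowerSeries] at this
  refine (mem_BddAlg_of_hasSum (h := h) (c := fun m => c (m + n)) f.2.1 fun τ => ?_).2.2
  have hq := pow_ne_zero n (qFun_ne_zero h τ)
  have h2 := (hasSum_nat_add_iff' n).mpr (hc τ)
  have h3 : ∑ i ∈ Finset.range n, c i • qFun h τ ^ i = 0 :=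
    Finset.sum_eq_zero fun i hi => by rw [h0 i (Finset.mem_range.mp hi), zero_smul]
  rw [h3, sub_zero] at h2
  have h4 := h2.mul_left ((qFun h τ ^ n)⁻¹)
  rw [← mul_assoc, inv_mul_cancel₀ hq, one_mul] at h4
  refine h4.congr_fun fun m => ?_
  simp only [smul_eq_mul, pow_add]
  field_simp

end Char

/-! ### Changing the width -/

section Rescale

variable [NeZero h] (k : ℕ) [NeZero k]

omit [NeZero h] [NeZero k] in
/-- A function of period `h` also has period `k h`. -/
theorem CuspAlg_le_mul : CuspAlg h ≤ CuspAlg (k * h) := by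
  intro f hf
  refine ⟨hf.1, ?_, hf.2.2⟩
  intro τ
  induction k with
  | zero => simp
  | succ n ih =>
    rcases eq_or_ne n 0 with rfl | hn
    · simpa using hf.2.1 τ
    · have : NeZero n := ⟨hn⟩
      have h1 : (((n + 1) * h : ℕ) : ℝ) +ᵥ τ = (h : ℝ) +ᵥ (((n * h : ℕ) : ℝ) +ᵥ τ) := by
        rw [vadd_vadd]; push_cast; congr 1; ring
      rw [h1, hf.2.1, ih]

theorem qFun_mul_pow (τ : ℍ) : qFun (k * h) τ ^ k = qFun h τ := by
  have hh : ((h : ℝ) : ℂ) ≠ 0 := by exact_mod_cast NeZero.ne h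
  have hk : ((k : ℝ) : ℂ) ≠ 0 := by exact_mod_cast NeZero.ne k
  simp only [qFun, Periodic.qParam, ← Complex.exp_nat_mul]
  congr 1
  push_cast at hh hk ⊢
  field_simp

/-- Changing the width multiplies exponents. -/
theorem laurentExp_mul (f : CuspAlg h) :
    laurentExp (k * h) (Subalgebra.inclusion (CuspAlg_le_mul k) f)
      = ModularCurve.qExpand ℂ k (laurentExp h f) := by
  obtain ⟨n, c, hc, he⟩ := exists_hasSum f
  classical
  -- The width `k h` series is the width `h` series in `q ^ k`.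
  have hs : ∀ τ : ℍ, HasSum (fun m : ℕ => (Function.extend (fun i => k * i) c 0) m
      • qFun (k * h) τ ^ m) (qFun (k * h) τ ^ (k * n) * (f : ℍ → ℂ) τ) := by
    intro τ
    have hinj : Function.Injective (fun i : ℕ => k * i) :=
      fun a b hab => Nat.eq_of_mul_eq_mul_left (Nat.pos_of_ne_zero (NeZero.ne k)) hab
    rw [pow_mul, qFun_mul_pow]
    refine (hinj.hasSum_iff ?_).mp ?_
    · intro m hm
      rw [Function.extend_apply' _ _ _ (by simpa using hm)]
      simp
    · refine (hc τ).congr_fun fun m => ?_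
      simp only [comp_apply, hinj.extend_apply]
      rw [pow_mul, qFun_mul_pow]
  rw [laurentExp_eq_of_hasSum (Subalgebra.inclusion (CuspAlg_le_mul k) f) hs, he,
    map_mul, ModularCurve.qExpand_single]
  congr 1
  · congr 1
    push_cast
    ring_nf
  -- Compare coefficients.
  · ext i
    by_cases hi : (k : ℤ) ∣ i
    · obtain ⟨j, rfl⟩ := hi
      rw [ModularCurve.qExpand_coeff_mul]
      rcases lt_or_ge j 0 with hj | hj
      · rw [ModularCurve.ofPowerSeries_coeff_of_neg _ hj,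
          ModularCurve.ofPowerSeries_coeff_of_neg _
            (mul_neg_of_pos_of_neg (by exact_mod_cast Nat.pos_of_ne_zero (NeZero.ne k)) hj)]
      · lift j to ℕ using hj
        rw [← Nat.cast_mul, HahnSeries.ofPowerSeries_apply_coeff,
          HahnSeries.ofPowerSeries_apply_coeff, PowerSeries.coeff_mk, PowerSeries.coeff_mk,
          Function.Injective.extend_apply fun a b hab =>
            Nat.eq_of_mul_eq_mul_left (Nat.pos_of_ne_zero (NeZero.ne k)) hab]
    · rw [ModularCurve.qExpand_coeff_of_not_dvd k _ hi]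
      rcases lt_or_ge i 0 with hi0 | hi0
      · rw [ModularCurve.ofPowerSeries_coeff_of_neg _ hi0]
      · lift i to ℕ using hi0
        rw [HahnSeries.ofPowerSeries_apply_coeff, PowerSeries.coeff_mk, Function.extend_apply']
        · rfl
        · rintro ⟨a, rfl⟩
          exact hi ⟨a, by push_cast; ring⟩

end Rescale

/-- Expanding with the width `k h` substitutes `q ↦ q ^ k` in the expansion of width `h`. -/
theorem laurentExp_width {h h' : ℕ} [NeZero h] [NeZero h'] (k : ℕ) [NeZero k] (hk : k * h = h')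
    (f : CuspAlg h) (g : CuspAlg h') (hfg : (g : ℍ → ℂ) = (f : ℍ → ℂ)) :
    laurentExp h' g = ModularCurve.qExpand ℂ k (laurentExp h f) := by
  subst hk
  rw [← laurentExp_mul]
  exact congrArg _ (Subtype.ext hfg)

end Fermat.Agent.ModFun
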