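import Fermat.Agent.FF.Degree
import Fermat.Agent.FF.RiemannRoch
import Fermat.Agent.Genus.PlacesOver

/-!
# Places cut out by embeddings into a valued field, and their labelling by orbits
-/

set_option autoImplicit false

noncomputable section

open Polynomial AlgebraicCurve IntermediateField
open scoped WithZero

namespace Fermat.Agent.ModFun

variable {K F L : Type*} [Field K] [Field F] [Field L] [Algebra K F] [Algebra K L]

/-- The place `{f | vL (φ f) ≤ 1}`, given an element of value `> 1`. -/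
def placeOfEmb [FF.IsFunctionField K F] (vL : Valuation L ℤᵐ⁰)
    (hKL : ∀ c : K, c ≠ 0 → vL (algebraMap K L c) = 1) (φ : F →ₐ[K] L) {y : F}
    (hy : 1 < vL (φ y)) : Place K F :=
  FF.placeOfValuationSubring ((vL.comap φ.toRingHom).valuationSubring)
    (fun a => by
      rw [Valuation.mem_valuationSubring_iff]
      show vL (φ (algebraMap K F a)) ≤ 1
      rw [AlgHom.commutes]
      rcases eq_or_ne a 0 with rfl | ha
      · simp
      · exact (hKL a ha).le)
    (fun h => absurd (show vL (φ y) ≤ 1 from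
      (Valuation.mem_valuationSubring_iff (vL.comap φ.toRingHom) y).mp
        (h ▸ ValuationSubring.mem_top y))
      (not_le.mpr hy))

/-- The valuation ring of the place cut out by an embedding. -/
theorem mem_placeOfEmb [FF.IsFunctionField K F] (vL : Valuation L ℤᵐ⁰)
    (hKL : ∀ c : K, c ≠ 0 → vL (algebraMap K L c) = 1) (φ : F →ₐ[K] L) {y : F}
    (hy : 1 < vL (φ y)) (f : F) :
    f ∈ (placeOfEmb vL hKL φ hy).toValuationSubring ↔ vL (φ f) ≤ 1 :=
  Valuation.mem_valuationSubring_iff (vL.comap φ.toRingHom) f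

/-- A valuation whose pullback along an embedding has the valuation ring of a place pulls back to
a positive multiple of the order at that place. -/
theorem exists_pos_mul_of_mem_iff (v : Place K F) (vL : Valuation L ℤᵐ⁰) (φ : F →ₐ[K] L)
    (h : ∀ f, f ∈ v.toValuationSubring ↔ vL (φ f) ≤ 1) :
    ∃ m : ℤ, 0 < m ∧ ∀ f : F, f ≠ 0 → Genus.ordL vL (φ f) = m * v.ord f := by
  have hinj : ∀ {f : F}, f ≠ 0 → φ f ≠ 0 := fun hf => (_root_.map_ne_zero φ).mpr hf
  have hsign : ∀ f : F, f ≠ 0 → (0 ≤ v.ord f ↔ 0 ≤ Genus.ordL vL (φ f)) := fun f hf => by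
    rw [← FF.mem_iff_ord v hf, h f, ← not_iff_not, not_le, not_le,
      Genus.ordL_spec vL (hinj hf), ← WithZero.exp_zero, WithZero.exp_lt_exp]
    omega
  obtain ⟨π, hπ0, hπ⟩ := FF.exists_uniformizer v
  have hπpos : 0 < Genus.ordL vL (φ π) := by
    have h1 := (hsign π hπ0).mp (by omega)
    have h2 := (hsign π⁻¹ (inv_ne_zero hπ0)).not.mp (by rw [v.ord_inv, hπ]; omega)
    rw [map_inv₀, not_le, Genus.ordL, map_inv₀, WithZero.log_inv] at h2
    rw [Genus.ordL] at h1 ⊢
    omega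
  refine ⟨_, hπpos, fun f hf => ?_⟩
  set u := f * π ^ (-v.ord f) with hu
  have hu0 : u ≠ 0 := mul_ne_zero hf (zpow_ne_zero _ hπ0)
  have hordu : v.ord u = 0 := by
    rw [hu, v.ord_mul hf (zpow_ne_zero _ hπ0), v.ord_zpow, hπ]; ring
  have h1 := (hsign u hu0).mp hordu.ge
  have h2 := (hsign u⁻¹ (inv_ne_zero hu0)).mp (by rw [v.ord_inv, hordu]; omega)
  rw [map_inv₀, Genus.ordL, map_inv₀, WithZero.log_inv] at h2
  have h3 : Genus.ordL vL (φ u) = 0 := by rw [Genus.ordL] at h1 ⊢; omega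
  rw [hu, map_mul, map_zpow₀, Genus.ordL_mul vL (hinj hf) (zpow_ne_zero _ (hinj hπ0)),
    Genus.ordL_zpow] at h3
  linear_combination h3

/-- The orders of `x - a` at its zeros add up to the degree over `K⟮x⟯`. -/
private theorem sum_ord_eq_finrank_adjoin [FF.IsFunctionField K F] [IsAlgClosed K]
    (x : F) (a : K)
    (hyt : Transcendental K (x - algebraMap K F a)) (Z : Finset (Place K F))
    (hZ : ∀ v, v ∈ Z ↔ 0 < v.ord (x - algebraMap K F a)) :
    ∑ v ∈ Z, v.ord (x - algebraMap K F a) = Module.finrank K⟮x⟯ F := by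
  classical
  set y := x - algebraMap K F a with hy
  have h1 := FF.degree_zeros hyt
  have hadj : K⟮y⟯ = K⟮x⟯ := by
    refine le_antisymm ?_ ?_
    · rw [IntermediateField.adjoin_simple_le_iff]
      exact sub_mem (mem_adjoin_simple_self K x) (K⟮x⟯.algebraMap_mem a)
    · rw [IntermediateField.adjoin_simple_le_iff]
      have := add_mem (mem_adjoin_simple_self K y) (K⟮y⟯.algebraMap_mem a)
      rwa [hy, sub_add_cancel] at this
  rw [hadj] at h1
  rw [← h1, FF.degree_eq_sum _ Z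
    (by intro v hv; rw [Finsupp.mem_support_iff, FF.poles_apply, v.ord_inv] at hv; rw [hZ]; omega)]
  refine Finset.sum_congr rfl fun v hv => ?_
  have hv' := (hZ v).mp hv
  rw [FF.deg_eq_one v, FF.poles_apply, v.ord_inv]
  omega

/-- The order at the place of an embedding divides the period of the embedding. -/
private theorem ord_dvd_minimalPeriod [CharZero K] {Ω : Type*}
    (vL : Valuation L ℤᵐ⁰)
    (φ : Ω → (F →ₐ[K] L)) (s : Equiv.Perm Ω) (σ : L →+* L) (hσ : ∀ ω f, φ (s ω) f = σ (φ ω f))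
    {e₀ : ℕ} (hfix : ∀ (n : ℕ) (g : L), g ≠ 0 → σ^[n] g = g → (e₀ : ℤ) ∣ (n : ℤ) * Genus.ordL vL g)
    (P : Ω → Place K F) (hP : ∀ ω f, f ∈ (P ω).toValuationSubring ↔ vL (φ ω f) ≤ 1)
    {y : F} (hne : y ≠ 0) {ω : Ω} (hy : Genus.ordL vL (φ ω y) = e₀) :
    (P ω).ord y ∣ (Function.minimalPeriod (s • ·) ω : ℤ) := by
  obtain ⟨m, hm, hmf⟩ := exists_pos_mul_of_mem_iff (P ω) vL (φ ω) (hP ω)
  obtain ⟨t, ht0, ht⟩ := FF.exists_uniformizer (P ω)
  have hper : σ^[Function.minimalPeriod (s • ·) ω] (φ ω t) = φ ω t := by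
    rw [← Genus.iterate_perm s σ φ hσ]
    exact congrArg (fun z => φ z t) (Function.iterate_minimalPeriod (f := (s • ·)) (x := ω))
  have h1 := hfix _ _ ((_root_.map_ne_zero _).mpr ht0) hper
  rw [hmf t ht0, ht, mul_one] at h1
  have h2 := hmf y hne
  rw [hy] at h2
  rw [h2, mul_comm m] at h1
  exact Int.dvd_of_mul_dvd_mul_right hm.ne' h1

/-- The place of an embedding only depends on its orbit. -/
private theorem place_eq_of_mem_orbit [CharZero K] {Ω : Type*} [Finite Ω] (vL : Valuation L ℤᵐ⁰)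
    (φ : Ω → (F →ₐ[K] L)) (s : Equiv.Perm Ω) (σ : L →+* L) (hσ : ∀ ω f, φ (s ω) f = σ (φ ω f))
    (hσv : ∀ g : L, vL (σ g) = vL g) (P : Ω → Place K F)
    (hP : ∀ ω f, f ∈ (P ω).toValuationSubring ↔ vL (φ ω f) ≤ 1) {ω ω' : Ω}
    (h : ω ∈ MulAction.orbit (Subgroup.zpowers s) ω') : P ω = P ω' := by
  have hiter : ∀ (n : ℕ) (g : L), vL (σ^[n] g) = vL g := fun n g => by
    induction n with
    | zero => rfl
    | succ n ih => rw [Function.iterate_succ_apply', hσv, ih]
  obtain ⟨g, rfl⟩ := h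
  have hgp : (g : Equiv.Perm Ω) ∈ Submonoid.powers s := mem_powers_iff_mem_zpowers.mpr g.2
  obtain ⟨k, hk⟩ := Submonoid.mem_powers_iff _ _ |>.mp hgp
  show P ((g : Equiv.Perm Ω) ω') = P ω'
  rw [← hk, Equiv.Perm.coe_pow]
  apply Place.ext
  ext f
  rw [hP, hP, Genus.iterate_perm s σ φ hσ, hiter]

open Classical in
/-- Weights dividing the orbit lengths and summing to the number of points equal the orbit
lengths. -/
private theorem eq_minimalPeriod_of_sum {Ω : Type*} [Fintype Ω] (s : Equiv.Perm Ω)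
    (w : MulAction.orbitRel.Quotient (Subgroup.zpowers s) Ω → ℤ)
    (hdvd : ∀ ω, w (Quotient.mk'' ω) ∣ (Function.minimalPeriod (s • ·) ω : ℤ))
    (hsum : ∑ q, w q = Fintype.card Ω) (ω : Ω) :
    w (Quotient.mk'' ω) = Function.minimalPeriod (s • ·) ω := by
  have hcard : ∀ ω, Fintype.card (MulAction.orbitRel.Quotient.orbit (Quotient.mk'' ω :
      MulAction.orbitRel.Quotient (Subgroup.zpowers s) Ω))
      = Function.minimalPeriod (s • ·) ω := fun ω => by
    rw [MulAction.minimalPeriod_eq_card]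
    exact Fintype.card_congr (Equiv.setCongr (MulAction.orbitRel.Quotient.orbit_mk ω))
  have hle : ∀ q ∈ (Finset.univ : Finset (MulAction.orbitRel.Quotient (Subgroup.zpowers s) Ω)),
      w q ≤ (Fintype.card q.orbit : ℤ) := by
    intro q _
    induction q using Quotient.inductionOn' with
    | h ω =>
      rw [hcard]
      refine Int.le_of_dvd ?_ (hdvd ω)
      rw [← hcard]
      have : Nonempty (MulAction.orbitRel.Quotient.orbit (Quotient.mk'' ω :
          MulAction.orbitRel.Quotient (Subgroup.zpowers s) Ω)) :=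
        ⟨⟨ω, by simp⟩⟩
      exact_mod_cast Fintype.card_pos
  have heq : ∑ q, w q = ∑ q : MulAction.orbitRel.Quotient (Subgroup.zpowers s) Ω,
      (Fintype.card q.orbit : ℤ) := by
    rw [hsum, Fintype.card_congr (MulAction.selfEquivSigmaOrbits' (Subgroup.zpowers s) Ω),
      Fintype.card_sigma, Nat.cast_sum]
  rw [← hcard ω]
  exact (Finset.sum_eq_sum_iff_of_le hle).mp heq (Quotient.mk'' ω) (Finset.mem_univ _)

open Classical in
/-- **Places over `x = a` are labelled by the orbits of `s` on the embeddings**, with ramification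
index the orbit length. -/
theorem places_iff_orbits [CharZero K] [FF.IsFunctionField K F] [IsAlgClosed K]
    {Ω : Type*} [Fintype Ω] (x : F) (a : K) (hx : Transcendental K x)
    (vL : Valuation L ℤᵐ⁰) (hKL : ∀ c : K, c ≠ 0 → vL (algebraMap K L c) = 1)
    (φ : Ω → (F →ₐ[K] L)) (hφinj : Function.Injective φ)
    (hcard : Fintype.card Ω = Module.finrank K⟮x⟯ F)
    (x₀ : L) (hx₀ : ∀ ω, φ ω x = x₀) (e₀ : ℕ) (he₀ : e₀ ≠ 0)
    (hord : Genus.ordL vL (x₀ - algebraMap K L a) = e₀)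
    (s : Equiv.Perm Ω) (σ : L →+* L) (hσ : ∀ ω f, φ (s ω) f = σ (φ ω f))
    (hσv : ∀ g : L, vL (σ g) = vL g)
    (hfix : ∀ (n : ℕ) (g : L), g ≠ 0 → σ^[n] g = g → (e₀ : ℤ) ∣ (n : ℤ) * Genus.ordL vL g)
    (P : Ω → Place K F) (hP : ∀ ω f, f ∈ (P ω).toValuationSubring ↔ vL (φ ω f) ≤ 1) :
    (∀ v : Place K F, 0 < v.ord (x - algebraMap K F a) ↔ ∃ ω, v = P ω) ∧
    (∀ ω ω', P ω = P ω' ↔ ω ∈ MulAction.orbit (Subgroup.zpowers s) ω') ∧
    ∀ ω, (P ω).ord (x - algebraMap K F a) = Function.minimalPeriod (s • ·) ω := by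
  set y := x - algebraMap K F a with hy
  have hyt : Transcendental K y := fun h => hx (by
    have := h.add (isAlgebraic_algebraMap (R := K) (A := F) a)
    rwa [hy, sub_add_cancel] at this)
  have hne : y ≠ 0 := fun h => hyt (h ▸ isAlgebraic_zero)
  have : FiniteDimensional K⟮x⟯ F := FF.finiteDimensional_adjoin hx
  have hφy : ∀ ω, φ ω y = x₀ - algebraMap K L a := fun ω => by
    rw [hy, map_sub, hx₀, AlgHom.commutes]
  have hpos : ∀ ω, 0 < (P ω).ord y := by
    intro ω
    obtain ⟨m, hm, hmf⟩ := exists_pos_mul_of_mem_iff (P ω) vL (φ ω) (hP ω)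
    have := hmf y hne
    rw [hφy, hord] at this
    by_contra hcon
    push Not at hcon
    have h1 : (e₀ : ℤ) ≤ 0 := this ▸ mul_nonpos_of_nonneg_of_nonpos hm.le hcon
    omega
  -- every zero of `x - a` comes from an embedding
  have hclass : ∀ v : Place K F, 0 < v.ord y → ∃ ω, v = P ω := by
    intro v hv
    obtain ⟨ω, hω⟩ := Genus.exists_embedding_of_place x a hne vL hKL φ hφinj hcard
      (fun ω ω' => (hx₀ ω).trans (hx₀ ω').symm)
      (fun ω => by
        have hne' : x₀ - algebraMap K L a ≠ 0 := by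
          intro h0; rw [h0] at hord; simp [Genus.ordL] at hord; omega
        rw [hx₀, ← Genus.ordL_pos_iff vL hne', hord]; omega)
      v ((Genus.adicValuation_lt_one_iff v hne).mpr hv)
    exact ⟨ω, FF.eq_of_le fun f hf => (hP ω f).mpr (hω f (v.adicValuation_le_one_of_mem hf))⟩
  have hPorb : ∀ ω ω', ω ∈ MulAction.orbit (Subgroup.zpowers s) ω' → P ω = P ω' := fun ω ω' =>
    place_eq_of_mem_orbit vL φ s σ hσ hσv P hP
  have hdvd : ∀ ω, (P ω).ord y ∣ (Function.minimalPeriod (s • ·) ω : ℤ) := fun ω =>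
    ord_dvd_minimalPeriod vL φ s σ hσ hfix P hP hne (by rw [hφy, hord])
  set Z : Finset (Place K F) := Finset.univ.image P with hZdef
  have hZ : ∀ v, v ∈ Z ↔ 0 < v.ord y := by
    intro v
    simp only [hZdef, Finset.mem_image, Finset.mem_univ, true_and]
    exact ⟨fun ⟨ω, hω⟩ => hω ▸ hpos ω, fun hv => (hclass v hv).imp fun ω h => h.symm⟩
  have hsum : ∑ v ∈ Z, v.ord y = Fintype.card Ω := by
    rw [hcard]
    exact sum_ord_eq_finrank_adjoin x a hyt Z hZ
  have hcardZ := Genus.card_places_eq_card_orbits x a hne vL hKL φ hφinj hcard x₀ hx₀ e₀ he₀ hord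
    s σ hσ hσv hfix Z hZ hsum
  -- there are as many zeros as orbits, so orbits and zeros correspond bijectively
  let Pbar : MulAction.orbitRel.Quotient (Subgroup.zpowers s) Ω → Z := fun q =>
    Quotient.liftOn' q (fun ω => (⟨P ω, (hZ _).mpr (hpos ω)⟩ : Z))
      fun ω ω' h => Subtype.ext (hPorb ω ω' h)
  have hPbij : Function.Bijective Pbar := by
    rw [Nat.bijective_iff_surjective_and_card]
    refine ⟨fun v => ?_, by rw [Nat.card_eq_fintype_card (α := Z), Fintype.card_coe, hcardZ]⟩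
    obtain ⟨ω, hω⟩ := hclass v.1 ((hZ _).mp v.2)
    exact ⟨Quotient.mk'' ω, Subtype.ext hω.symm⟩
  refine ⟨fun v => ⟨hclass v, fun ⟨ω, h⟩ => h ▸ hpos ω⟩,
    fun ω ω' => ⟨fun h => ?_, hPorb ω ω'⟩, ?_⟩
  · exact Quotient.eq''.mp (hPbij.1 (a₁ := Quotient.mk'' ω) (a₂ := Quotient.mk'' ω')
      (Subtype.ext h))
  · refine eq_minimalPeriod_of_sum s (fun q => (Pbar q : Place K F).ord y) hdvd ?_
    rw [hPbij.sum_comp (fun v : Z => (v : Place K F).ord y),
      Finset.sum_coe_sort Z fun v : Place K F => v.ord y, hsum]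

end Fermat.Agent.ModFun
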