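import Fermat.Agent.Poincare.LevelOne
import Fermat.Agent.Genus.LocalValuation
import Fermat.Agent.Genus.JFunction
import Fermat.Agent.ModFun.JFun

/-!
# A generator for the rotation at a point of `ℍ`
-/

set_option autoImplicit false

noncomputable section

open UpperHalfPlane hiding I
open Complex Filter Function
open scoped MatrixGroups

namespace Fermat.Agent.ModFun

open ModularForm EisensteinSeries in
/-- `E₄` vanishes where `j = 0`. -/
lemma e4_eq_zero_of_jH_eq_zero {τ : ℍ} (h : Fermat.Agent.ModFun.jH τ = 0) : E₄ τ = 0 := by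
  have := Fermat.Agent.ModFun.jH_mul_discriminant τ
  rw [h, zero_mul] at this
  exact pow_eq_zero_iff three_ne_zero |>.mp this.symm
open ModularForm EisensteinSeries in
/-- `E₆` vanishes where `j = 1728`. -/
lemma e6_eq_zero_of_jH_eq {τ : ℍ} (h : jH τ = 1728) : E₆ τ = 0 := by
  have h1 := Genus.jH_sub_1728 τ
  rw [show Genus.jH τ = jH τ from rfl, h, sub_self] at h1
  exact pow_eq_zero_iff two_ne_zero |>.mp
    ((div_eq_zero_iff.mp h1.symm).resolve_right (ModularForm.discriminant_ne_zero τ))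

/-- `Genus.jH` and `jH` are the same function. -/
theorem genusJ_eq : Genus.jH = jH := rfl

/-- `jH - jH τ` as a holomorphic function. -/
def jSubHol (a : ℂ) : HolH := ⟨fun z => jH z - a, mdifferentiable_jH.sub mdifferentiable_const⟩

/-- `j - a` is not identically zero. -/
theorem jSubHol_ne_zero (a : ℂ) : jSubHol a ≠ 0 := by
  intro h
  obtain ⟨τ, hτ⟩ := Genus.jH_surjective (a + 1)
  have h1 : jH τ - a = 0 := congrFun (congrArg Subtype.val h) τ
  rw [← genusJ_eq, hτ] at h1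
  simp at h1

/-- The cocycle relation of the automorphy factor. -/
theorem denom_mul_apply (g h : SL(2, ℤ)) (τ : ℍ) :
    denom (g * h : SL(2, ℤ)) τ
      = denom g ((h • τ : ℍ) : ℂ) * denom h τ := by
  simp only [map_mul]
  rw [denom_cocycle_σ]
  simp [σ]

theorem denom_conj_fixed {g s : SL(2, ℤ)} {τ : ℍ} (hs : s • τ = τ) :
    denom (g * s * g⁻¹ : SL(2, ℤ)) ((g • τ : ℍ) : ℂ) = denom s τ := by
  rw [denom_mul_apply, inv_smul_smul, denom_mul_apply, hs, mul_comm (denom g τ), mul_assoc]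
  have h1 := denom_mul_apply g g⁻¹ (g • τ)
  rw [mul_inv_cancel, inv_smul_smul] at h1
  rw [← h1]
  simp [ModularGroup.denom_apply]

theorem three_dvd_of_rho_zpow {k : ℤ} (h : (UpperHalfPlane.ρ : ℂ) ^ k = 1) : (3 : ℤ) ∣ k := by
  have h0 : (UpperHalfPlane.ρ : ℂ) ≠ 0 := UpperHalfPlane.ne_zero _
  have him := UpperHalfPlane.ρ.im_pos
  have h3 : (UpperHalfPlane.ρ : ℂ) ^ (3 : ℤ) = 1 := by
    show (UpperHalfPlane.ρ : ℂ) ^ (3 : ℕ) = 1
    linear_combination ((UpperHalfPlane.ρ : ℂ) - 1) * UpperHalfPlane.ρ_sq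
  have hk : (UpperHalfPlane.ρ : ℂ) ^ (k % 3) = 1 := by
    rw [← h]
    conv_rhs => rw [← Int.mul_ediv_add_emod k 3, zpow_add₀ h0, zpow_mul, h3, one_zpow, one_mul]
  have hlt := Int.emod_lt_of_pos k (show (0 : ℤ) < 3 by norm_num)
  rcases (show k % 3 = 0 ∨ k % 3 = 1 ∨ k % 3 = 2 by omega) with h' | h' | h'
  · exact Int.dvd_of_emod_eq_zero h'
  · rw [h', zpow_one] at hk
    rw [← coe_im, hk] at him; simp at him
  · rw [h', show (UpperHalfPlane.ρ : ℂ) ^ (2 : ℤ) = (UpperHalfPlane.ρ : ℂ) ^ (2 : ℕ) from rfl,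
      UpperHalfPlane.ρ_sq] at hk
    have := congrArg Complex.im hk
    simp at this
    linarith

theorem exists_stab_special : ∀ a : ℂ, ∃ (τ : ℍ) (s : SL(2, ℤ)) (e : ℕ), jH τ = a ∧ s • τ = τ ∧
    e ≠ 0 ∧ (∀ k : ℤ, (denom s τ ^ 2) ^ k = 1 → (e : ℤ) ∣ k) ∧
    ∀ τ' : ℍ, jH τ' = a → ordHol τ' (jSubHol a) = e := by
  intro a
  rcases eq_or_ne a 0 with rfl | ha
  · refine ⟨UpperHalfPlane.ρ, ModularGroup.S * ModularGroup.T, 3, Genus.jH_ρ, Genus.ST_smul_ρ,
      three_ne_zero, fun k hk => three_dvd_of_rho_zpow ?_, fun τ' h => ?_⟩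
    · rw [← hk]
      congr 1
      rw [ModularGroup.denom_apply]
      simp only [ModularGroup.coe_S, ModularGroup.coe_T, Matrix.SpecialLinearGroup.coe_mul]
      simp [Matrix.mul_apply, Fin.sum_univ_two]
      linear_combination -UpperHalfPlane.ρ_sq
    · have h4 := e4_eq_zero_of_jH_eq_zero h
      rw [ordHol, analyticOrderNatAt]
      have : ((jSubHol 0 : ℍ → ℂ) ∘ ofComplex) = Genus.jH ∘ ofComplex := by
        funext z; simp [jSubHol, genusJ_eq]
      rw [this, Genus.analyticOrderAt_jH_zero h4]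
      rfl
  rcases eq_or_ne a 1728 with rfl | ha'
  · refine ⟨UpperHalfPlane.I, ModularGroup.S, 2, Genus.jH_I, Genus.S_smul_I, two_ne_zero,
      fun k hk => ?_, fun τ' h => ?_⟩
    · have hd : denom (ModularGroup.S : SL(2, ℤ)) UpperHalfPlane.I ^ 2 = -1 := by
        rw [ModularGroup.denom_apply]
        simp [ModularGroup.S]
      rw [hd] at hk
      rcases Int.even_or_odd k with he | ho
      · obtain ⟨m, rfl⟩ := he
        exact ⟨m, by ring⟩
      · rw [ho.neg_one_zpow] at hk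
        norm_num at hk
    · have h6 := e6_eq_zero_of_jH_eq h
      rw [ordHol, analyticOrderNatAt]
      have : ((jSubHol 1728 : ℍ → ℂ) ∘ ofComplex) = (fun z => Genus.jH z - 1728) ∘ ofComplex := rfl
      rw [this, Genus.analyticOrderAt_jH_sub_1728 h6]
      rfl
  obtain ⟨τ, hτ⟩ := Genus.jH_surjective a
  refine ⟨τ, 1, 1, hτ, one_smul _ τ, one_ne_zero, fun k _ => one_dvd k, fun τ' h => ?_⟩
  rw [ordHol, analyticOrderNatAt]
  have : ((jSubHol a : ℍ → ℂ) ∘ ofComplex) = (fun z => Genus.jH z - a) ∘ ofComplex := rfl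
  rw [this, Genus.analyticOrderAt_jH_sub ha ha' (τ := τ') h]
  rfl

/-- At every point there is a fixing element rotating by a root of unity of exact order
`ord (j - j τ)`. -/
theorem exists_stab (τ₀ : ℍ) : ∃ (s : SL(2, ℤ)) (e : ℕ), s • τ₀ = τ₀ ∧ e ≠ 0 ∧
    ordHol τ₀ (jSubHol (jH τ₀)) = e ∧
    ∀ k : ℤ, (denom s τ₀ ^ 2) ^ k = 1 → (e : ℤ) ∣ k := by
  obtain ⟨τ, s, e, hj, hs, he, hk, hord⟩ := exists_stab_special (jH τ₀)
  obtain ⟨g, rfl⟩ := Poincare.exists_smul_eq_of_jH_eq (τ₀ := τ) (τ₁ := τ₀) (by rw [genusJ_eq, hj])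
  refine ⟨g * s * g⁻¹, e, by rw [mul_smul, mul_smul, inv_smul_smul, hs], he, hord _ rfl,
    fun k hk' => hk k ?_⟩
  rwa [denom_conj_fixed hs] at hk'

end Fermat.Agent.ModFun
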