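import Fermat.Agent.ModFun.Ramification
import Fermat.Prelude.Def_ModularCurve_HeckeOperator

/-!
# The Atkin–Lehner involution at a prime `ℓ ∤ N` on the function field of level `N ℓ`

`γ = (B, -A; N, ℓ)` with `A N + B ℓ = 1` satisfies `f (γ τ) = f τ` and `f (ℓ γ τ) = f (τ / ℓ)`
for `f` of level `N`, so the cusp expansion attached to `γ⁻¹` gives `w` with
`w ∘ α = β` and `w ∘ β = α`.
-/

set_option autoImplicit false

noncomputable section

open UpperHalfPlane hiding I
open CongruenceSubgroup ModularCurve IntermediateField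
open scoped MatrixGroups

attribute [local instance 20000] SubalgebraClass.toAlgebra

namespace Fermat.Agent.ModFun

/-- Scalings of the upper half plane compose multiplicatively. -/
theorem scaleH_mul (d e : ℕ) [NeZero d] [NeZero e] (τ : ℍ) :
    scaleH (d * e) τ = scaleH d (scaleH e τ) := by
  apply UpperHalfPlane.ext
  rw [coe_scaleH, coe_scaleH, coe_scaleH]
  push_cast
  ring

variable (N ℓ : ℕ) [NeZero N] [NeZero ℓ]

theorem exists_alCoset (hNℓ : Nat.Coprime N ℓ) : ∃ c : Coset (N * ℓ), ∀ (d : ℕ) [NeZero d]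
    (hd : d ∣ N),
    cuspEmb (N * ℓ) c (toFC (N * ℓ) (jd (hd.trans (dvd_mul_right N ℓ))))
        = qExpand ℂ N (qExpand ℂ ℓ (qExpand ℂ d (jqModC ℂ))) ∧
      cuspEmb (N * ℓ) c (toFC (N * ℓ) (jd (d := d * ℓ) (mul_dvd_mul_right hd ℓ)))
        = qExpand ℂ N (qExpand ℂ d (jqModC ℂ)) := by
  obtain ⟨A, B, hAB⟩ : ∃ A B : ℤ, (N : ℤ) * A + (ℓ : ℤ) * B = 1 := by
    refine ⟨Nat.gcdA N ℓ, Nat.gcdB N ℓ, ?_⟩
    rw [← Nat.gcd_eq_gcd_ab, Nat.coprime_iff_gcd_eq_one.mp hNℓ, Nat.cast_one]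
  let γ : SL(2, ℤ) := ⟨!![B, -A; (N : ℤ), (ℓ : ℤ)], by
    rw [Matrix.det_fin_two_of]; linear_combination hAB⟩
  let δ : SL(2, ℤ) := ⟨!![(ℓ : ℤ) * B, -A; (N : ℤ), 1], by
    rw [Matrix.det_fin_two_of]; linear_combination hAB⟩
  have hγ : γ ∈ Gamma0 N := by rw [Gamma0_mem]; simp [γ]
  have hδ : δ ∈ Gamma0 N := by rw [Gamma0_mem]; simp [δ]
  have hscale : ∀ τ : ℍ, scaleH ℓ (γ • τ) = δ • affine 1 0 ℓ τ :=
    scaleH_smul_of_hermite (d := ℓ) (g := γ) (δ := δ) (a := 1) (b := 0) (e := ℓ)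
      (show _ = (ℓ : ℤ) * B * _ by simp [γ]) (show _ = (ℓ : ℤ) * B * 0 + -A * _ by simp [γ]; ring)
      (show _ = (N : ℤ) * _ by simp [γ]) (show _ = (N : ℤ) * 0 + 1 * _ by simp [γ])
  refine ⟨((γ⁻¹ : SL(2, ℤ)) : Coset (N * ℓ)), fun d _ hd => ?_⟩
  have hinv : ∀ g ∈ Gamma0 N, ∀ τ : ℍ, (jdC d : ℍ → ℂ) (g • τ) = (jdC d : ℍ → ℂ) τ :=
    (jdC_mem_Hol hd).2.1
  constructor
  · rw [cuspEmb_toFC, laurentExp_width (h := 1) (N * ℓ) (mul_one _) (jdC d) _ ?_, laurentExp_jdC]
    · rw [← qExpand_qExpand ℓ N]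
    · funext τ
      rw [tr_mk, inv_inv]
      exact hinv γ hγ τ
  · rw [cuspEmb_toFC, laurentExp_width (h := ℓ) N rfl (compAffine 1 0 ℓ (jdC d)) _ ?_,
      laurentExp_compAffine, affineRoot_zero, twist_one, qExpand_one_apply, laurentExp_jdC]
    funext τ
    rw [tr_mk, inv_inv, jd_apply, scaleH_mul, hscale, ← jdC_apply, hinv δ hδ]
    rfl

/-- A coset realising the Atkin–Lehner involution at `ℓ`. -/
def alCoset (hNℓ : Nat.Coprime N ℓ) : Coset (N * ℓ) := (exists_alCoset N ℓ hNℓ).choose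

theorem alCoset_spec (hNℓ : Nat.Coprime N ℓ) (d : ℕ) [NeZero d] (hd : d ∣ N) :
    cuspEmb (N * ℓ) (alCoset N ℓ hNℓ) (toFC (N * ℓ) (jd (hd.trans (dvd_mul_right N ℓ))))
        = qExpand ℂ N (qExpand ℂ ℓ (qExpand ℂ d (jqModC ℂ))) ∧
      cuspEmb (N * ℓ) (alCoset N ℓ hNℓ) (toFC (N * ℓ) (jd (d := d * ℓ) (mul_dvd_mul_right hd ℓ)))
        = qExpand ℂ N (qExpand ℂ d (jqModC ℂ)) :=
  (exists_alCoset N ℓ hNℓ).choose_spec d hd

variable {N ℓ}

/-- The expansion of `j (d τ)` is that of `j` in `q ^ d`. -/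
theorem coe_toFC_jd {M d : ℕ} [NeZero M] [NeZero d] (hd : d ∣ M) :
    (toFC M (jd hd) : LaurentSeries ℂ) = qExpand ℂ d (jqModC ℂ) := qExp_jd hd

variable {L : Type*} [Field L] [Algebra ℚ L] (ι : L →+* ℂ)

/-- A subfield of an adjunction containing constants and generators is everything. -/
theorem mem_of_eq_adjoin {K M : Type*} [Field K] [Field M] [Algebra K M] {S : Set M}
    (E : IntermediateField K M) (hE : E = adjoin K S) (T : Subfield E)
    (hc : ∀ a : K, algebraMap K E a ∈ T) (hgen : ∀ x : E, (x : M) ∈ S → x ∈ T) (x : E) :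
    x ∈ T := by
  subst hE
  let T' : IntermediateField K (adjoin K S) := { T with algebraMap_mem' := hc }
  suffices adjoin K S ≤ IntermediateField.lift T' from
    (IntermediateField.mem_lift x).mp (this x.2)
  rw [IntermediateField.adjoin_le_iff]
  exact fun z hz => (IntermediateField.mem_lift ⟨z, subset_adjoin K S hz⟩).mpr (hgen _ hz)

omit [NeZero N] in
/-- Ring homomorphisms out of the field of level `N` are determined by constants and generators. -/
theorem ringHom_ext_level {R : Type*} [DivisionRing R]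
    (f g : laurentBaseChange L (modularFunctionFieldFull N) →+* R)
    (hc : ∀ a : L, f (algebraMap L _ a) = g (algebraMap L _ a))
    (hgen : ∀ x : laurentBaseChange L (modularFunctionFieldFull N),
      (x : LaurentSeries L) ∈ divisorExpansionsC L N → f x = g x) : f = g :=
  RingHom.ext fun x =>
    mem_of_eq_adjoin (S := divisorExpansionsC L N) _ (laurentBaseChange_eq_fullC N L)
      (f.eqLocusField g) hc hgen x

omit [NeZero N] in
/-- An embedding of the constants maps the function field into the complex one. -/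
theorem coeffMap_mem_FC (x : laurentBaseChange L (modularFunctionFieldFull N)) :
    coeffMap ι (x : LaurentSeries L) ∈ modularFunctionFieldFullC ℂ N := by
  rw [← laurentBaseChange_eq_fullC N ℂ, ← JacTorsion.cExt_laurentBaseChange (ι := ι)]
  exact JacTorsion.coeffMap_mem_cExt ι _ x.2

/-- The model over `L` inside the complex function field. -/
def toFCHom (N : ℕ) [NeZero N] :
    laurentBaseChange L (modularFunctionFieldFull N) →+* FC N :=
  ((coeffMap ι).comp (laurentBaseChange L (modularFunctionFieldFull N)).val.toRingHom).codRestrict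
    (FC N).toSubfield (coeffMap_mem_FC ι)

/-- `toFCHom` applies `ι` to the coefficients of the expansion. -/
@[simp]
theorem coe_toFCHom (x : laurentBaseChange L (modularFunctionFieldFull N)) :
    (toFCHom ι N x : LaurentSeries ℂ) = coeffMap ι (x : LaurentSeries L) := rfl

/-- The map to the complex function field extends the embedding of the constants. -/
theorem toFCHom_algebraMap (a : L) :
    toFCHom ι N (algebraMap L _ a) = algebraMap ℂ (FC N) (ι a) := by
  refine Subtype.ext ?_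
  show coeffMap ι (algebraMap L (LaurentSeries L) a) = algebraMap ℂ (LaurentSeries ℂ) (ι a)
  rw [algebraMap_laurentSeries_eq_single, algebraMap_laurentSeries_eq_single, coeffMap_single]

/-- The expansion at the Atkin–Lehner cusp, on the model over `L`. -/
def alExp (hNℓ : Nat.Coprime N ℓ) :
    laurentBaseChange L (modularFunctionFieldFull (N * ℓ)) →+* LaurentSeries ℂ :=
  (cuspEmb (N * ℓ) (alCoset N ℓ hNℓ)).toRingHom.comp (toFCHom ι (N * ℓ))

variable (L N ℓ) in
/-- The expansion of level `N ℓ` in the variable `exp (2πiτ/N)`. -/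
def infExp : laurentBaseChange L (modularFunctionFieldFull (N * ℓ)) →+* LaurentSeries ℂ :=
  ((qExpand ℂ N).comp (coeffMap ι)).comp
    (laurentBaseChange L (modularFunctionFieldFull (N * ℓ))).val.toRingHom

omit [NeZero ℓ] in
theorem infExp_apply (x : laurentBaseChange L (modularFunctionFieldFull (N * ℓ))) :
    infExp N ℓ L ι x = qExpand ℂ N (coeffMap ι (x : LaurentSeries L)) := rfl

theorem alExp_algebraMap (hNℓ : Nat.Coprime N ℓ) (a : L) :
    alExp ι hNℓ (algebraMap L _ a) = infExp N ℓ L ι (algebraMap L _ a) := by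
  rw [alExp, RingHom.comp_apply, toFCHom_algebraMap]
  refine (AlgHom.commutes _ _).trans ?_
  rw [infExp_apply]
  show _ = qExpand ℂ N (coeffMap ι (algebraMap L (LaurentSeries L) a))
  simp only [algebraMap_laurentSeries_eq_single, coeffMap_single, qExpand_single, mul_zero]

theorem alExp_apply (hNℓ : Nat.Coprime N ℓ)
    (x : laurentBaseChange L (modularFunctionFieldFull (N * ℓ))) :
    alExp ι hNℓ x = cuspEmb (N * ℓ) (alCoset N ℓ hNℓ) (toFCHom ι (N * ℓ) x) := rfl

theorem alExp_comp (hNℓ : Nat.Coprime N ℓ) :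
    (alExp ι hNℓ).comp (heckeAlphaBar L N ℓ).toRingHom
        = (infExp N ℓ L ι).comp (heckeBetaBar L N ℓ).toRingHom ∧
      (alExp ι hNℓ).comp (heckeBetaBar L N ℓ).toRingHom
        = (infExp N ℓ L ι).comp (heckeAlphaBar L N ℓ).toRingHom := by
  constructor
  · refine ringHom_ext_level _ _ (fun a => ?_) (fun x hx => ?_)
    · rw [RingHom.comp_apply, RingHom.comp_apply, AlgHom.toRingHom_eq_coe, AlgHom.toRingHom_eq_coe,
        RingHom.coe_coe, RingHom.coe_coe, AlgHom.commutes, AlgHom.commutes, alExp_algebraMap]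
    obtain ⟨d, hd, hdN, hxd⟩ := hx
    rw [RingHom.comp_apply, RingHom.comp_apply, AlgHom.toRingHom_eq_coe, AlgHom.toRingHom_eq_coe,
      RingHom.coe_coe, RingHom.coe_coe, alExp_apply, infExp_apply, coe_heckeBetaBar, hxd]
    have hy : toFCHom ι (N * ℓ) (heckeAlphaBar L N ℓ x)
        = toFC (N * ℓ) (jd (hdN.trans (dvd_mul_right N ℓ))) := Subtype.ext (by
      rw [coe_toFC_jd, coe_toFCHom, coe_heckeAlphaBar, hxd, coeffMap_qExpand, coeffMap_jqModC])
    rw [hy, (alCoset_spec N ℓ hNℓ d hdN).1]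
    simp only [coeffMap_qExpand, coeffMap_jqModC]
  · refine ringHom_ext_level _ _ (fun a => ?_) (fun x hx => ?_)
    · rw [RingHom.comp_apply, RingHom.comp_apply, AlgHom.toRingHom_eq_coe, AlgHom.toRingHom_eq_coe,
        RingHom.coe_coe, RingHom.coe_coe, AlgHom.commutes, AlgHom.commutes, alExp_algebraMap]
    obtain ⟨d, hd, hdN, hxd⟩ := hx
    rw [RingHom.comp_apply, RingHom.comp_apply, AlgHom.toRingHom_eq_coe, AlgHom.toRingHom_eq_coe,
      RingHom.coe_coe, RingHom.coe_coe, alExp_apply, infExp_apply, coe_heckeAlphaBar, hxd]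
    have hy : toFCHom ι (N * ℓ) (heckeBetaBar L N ℓ x)
        = toFC (N * ℓ) (jd (d := d * ℓ) (mul_dvd_mul_right hdN ℓ)) := Subtype.ext (by
      rw [coe_toFC_jd, coe_toFCHom, coe_heckeBetaBar, hxd]
      simp only [coeffMap_qExpand, coeffMap_jqModC, qExpand_qExpand]
      congr! 2
      rw [mul_comm])
    rw [hy, (alCoset_spec N ℓ hNℓ d hdN).2]
    simp only [coeffMap_qExpand, coeffMap_jqModC]

/-- The generators of level `N ℓ` come from level `N` through `α` or `β`. -/
theorem exists_alpha_or_beta (hℓ : ℓ.Prime)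
    {x : laurentBaseChange L (modularFunctionFieldFull (N * ℓ))}
    (hx : (x : LaurentSeries L) ∈ divisorExpansionsC L (N * ℓ)) :
    ∃ f : laurentBaseChange L (modularFunctionFieldFull N),
      x = heckeAlphaBar L N ℓ f ∨ x = heckeBetaBar L N ℓ f := by
  obtain ⟨d, hd, hdM, hxd⟩ := hx
  by_cases hℓd : ℓ ∣ d
  · obtain ⟨e, rfl⟩ := hℓd
    have : NeZero e := ⟨right_ne_zero_of_mul hd.out⟩
    have heN : e ∣ N := by
      rw [mul_comm N ℓ] at hdM
      exact Nat.dvd_of_mul_dvd_mul_left (Nat.pos_of_ne_zero (NeZero.ne ℓ)) hdM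
    refine ⟨⟨qExpand L e (jqModC L), laurentBaseChange_eq_fullC N L ▸ jqModCd_mem_full L N heN⟩,
      Or.inr (Subtype.ext ?_)⟩
    rw [coe_heckeBetaBar, hxd, qExpand_qExpand]
  · have hdN : d ∣ N := ((hℓ.coprime_iff_not_dvd.mpr hℓd).symm).dvd_of_dvd_mul_right hdM
    refine ⟨⟨qExpand L d (jqModC L), laurentBaseChange_eq_fullC N L ▸ jqModCd_mem_full L N hdN⟩,
      Or.inl (Subtype.ext ?_)⟩
    rw [coe_heckeAlphaBar, hxd]

theorem alExp_mem_range (hℓ : ℓ.Prime) (hNℓ : Nat.Coprime N ℓ)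
    (x : laurentBaseChange L (modularFunctionFieldFull (N * ℓ))) :
    ∃ y, infExp N ℓ L ι y = alExp ι hNℓ x := by
  obtain ⟨hA, hB⟩ := alExp_comp ι hNℓ
  refine RingHom.mem_fieldRange.mp (mem_of_eq_adjoin (S := divisorExpansionsC L (N * ℓ)) _
    (laurentBaseChange_eq_fullC (N * ℓ) L) ((infExp N ℓ L ι).fieldRange.comap (alExp ι hNℓ))
    (fun a => RingHom.mem_fieldRange.mpr ⟨algebraMap L _ a, (alExp_algebraMap ι hNℓ a).symm⟩)
    (fun u hu => ?_) x)
  obtain ⟨f, h | h⟩ := exists_alpha_or_beta hℓ hu <;> rw [h]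
  · exact RingHom.mem_fieldRange.mpr ⟨_, (RingHom.congr_fun hA f).symm⟩
  · exact RingHom.mem_fieldRange.mpr ⟨_, (RingHom.congr_fun hB f).symm⟩

include ι in
theorem exists_alHom (hℓ : ℓ.Prime) (hNℓ : Nat.Coprime N ℓ) :
    ∃ w : laurentBaseChange L (modularFunctionFieldFull (N * ℓ)) →+*
        laurentBaseChange L (modularFunctionFieldFull (N * ℓ)),
      (∀ f, w (heckeAlphaBar L N ℓ f) = heckeBetaBar L N ℓ f) ∧
      (∀ f, w (heckeBetaBar L N ℓ f) = heckeAlphaBar L N ℓ f) ∧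
      (∀ a : L, w (algebraMap L _ a) = algebraMap L _ a) ∧ ∀ x, w (w x) = x := by
  choose w hw using alExp_mem_range ι hℓ hNℓ (L := L)
  have hinj : Function.Injective (infExp N ℓ L ι) := (infExp N ℓ L ι).injective
  obtain ⟨hA, hB⟩ := alExp_comp ι hNℓ
  let W : laurentBaseChange L (modularFunctionFieldFull (N * ℓ)) →+*
      laurentBaseChange L (modularFunctionFieldFull (N * ℓ)) :=
    { toFun := w
      map_one' := hinj (by rw [hw, map_one, map_one])
      map_mul' := fun x y => hinj (by rw [hw, map_mul, map_mul, hw, hw])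
      map_zero' := hinj (by rw [hw, map_zero, map_zero])
      map_add' := fun x y => hinj (by rw [hw, map_add, map_add, hw, hw]) }
  have hα : ∀ f, W (heckeAlphaBar L N ℓ f) = heckeBetaBar L N ℓ f := fun f =>
    hinj ((hw _).trans (RingHom.congr_fun hA f))
  have hβ : ∀ f, W (heckeBetaBar L N ℓ f) = heckeAlphaBar L N ℓ f := fun f =>
    hinj ((hw _).trans (RingHom.congr_fun hB f))
  have hc : ∀ a : L, W (algebraMap L _ a) = algebraMap L _ a := fun a =>
    hinj ((hw _).trans (alExp_algebraMap ι hNℓ a))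
  refine ⟨W, hα, hβ, hc, fun x => RingHom.congr_fun
    (f := W.comp W) (g := RingHom.id _) (ringHom_ext_level _ _ (fun a => ?_) fun u hu => ?_) x⟩
  · show W (W _) = _
    rw [hc, hc]; rfl
  · show W (W u) = u
    obtain ⟨f, h | h⟩ := exists_alpha_or_beta hℓ hu <;> rw [h]
    · rw [hα, hβ]
    · rw [hβ, hα]

variable (N ℓ) in
/-- The Atkin–Lehner involution of the `ℚ̄`-model at level `N ℓ`. -/
theorem exists_alEquiv (hℓ : ℓ.Prime) (hN : ¬ ℓ ∣ N) :
    ∃ w : modularFunctionFieldBar (N * ℓ) ≃ₐ[AlgebraicClosure ℚ] modularFunctionFieldBar (N * ℓ),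
      (∀ f, w (heckeAlphaBar (AlgebraicClosure ℚ) N ℓ f) =
      heckeBetaBar (AlgebraicClosure ℚ) N ℓ f) ∧
      (∀ f, w (heckeBetaBar (AlgebraicClosure ℚ) N ℓ f) =
        heckeAlphaBar (AlgebraicClosure ℚ) N ℓ f) ∧
      ∀ x, w (w x) = x := by
  obtain ⟨w, ha, hb, hc, hi⟩ := exists_alHom iotaC (N := N) hℓ (hℓ.coprime_iff_not_dvd.mpr hN).symm
  exact ⟨{ toFun := w, invFun := w, left_inv := hi, right_inv := hi, map_mul' := map_mul w,
           map_add' := map_add w, commutes' := hc }, ha, hb, hi⟩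

end Fermat.Agent.ModFun
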