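import Fermat.Agent.ModFun.Field
import Fermat.Agent.ModFun.OrbitPlaces
import Fermat.Agent.ModFun.Stab
import Fermat.Agent.Genus.LocalValuation

/-!
# The finite places of the complex function field: orbits of `Γ₀(N)` on `ℍ`
-/

set_option autoImplicit false

noncomputable section

open UpperHalfPlane hiding I
open Filter Complex CongruenceSubgroup AlgebraicCurve IntermediateField
open scoped MatrixGroups

namespace Fermat.Agent.ModFun

variable (N : ℕ) [NeZero N]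

instance isFunctionField_FC : FF.IsFunctionField ℂ (FC N) := isFunctionField_fullC N ℂ

variable {N}

theorem emb_mk_eq (g : SL(2, ℤ)) (x : FC N) :
    emb N (g : Coset N) x = actMer g⁻¹ (emb N ((1 : SL(2, ℤ)) : Coset N) x) := by
  rw [emb_smul, inv_inv, MulAction.Quotient.smul_coe, smul_eq_mul, mul_one]

omit [NeZero N] in
theorem toMerH_jC : toMerH N (jC N) = algebraMap HolH MerH ⟨jH, mdifferentiable_jH⟩ := rfl

omit [NeZero N] in
/-- `j - a` as a meromorphic function. -/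
theorem toMerH_jC_sub (a : ℂ) :
    toMerH N (jC N) - algebraMap ℂ MerH a = algebraMap HolH MerH (jSubHol a) := by
  rw [toMerH_jC, IsScalarTower.algebraMap_apply ℂ HolH MerH, ← map_sub]
  congr 1

theorem one_lt_valAt_inv_jF_sub (τ : ℍ) :
    1 < valAt τ (emb N ((1 : SL(2, ℤ)) : Coset N)
      ((jF N - algebraMap ℂ (FC N) (jH τ))⁻¹)) := by
  rw [map_inv₀, map_inv₀, map_sub, emb_jF, AlgHom.commutes, toMerH_jC_sub, valAt_algebraMap]
  have hv := valHol_apply (τ := τ) (jSubHol_ne_zero (jH τ))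
  rw [one_lt_inv₀ (zero_lt_iff.mpr (by rw [hv]; exact WithZero.exp_ne_zero)), hv,
    ← WithZero.exp_zero, WithZero.exp_lt_exp]
  have h2 : 0 < ordHol τ (jSubHol (jH τ)) :=
    (ordHol_pos_iff (jSubHol_ne_zero _) τ).mpr (sub_self _)
  omega

/-- The place of the function field at `τ ∈ ℍ`. -/
def placeAt (N : ℕ) [NeZero N] (τ : ℍ) : Place ℂ (FC N) :=
  placeOfEmb (valAt τ) (fun _ hc => valAt_constant hc τ) (emb N ((1 : SL(2, ℤ)) : Coset N))
    (one_lt_valAt_inv_jF_sub τ)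

theorem mem_placeAt_iff (τ : ℍ) (x : FC N) :
    x ∈ (placeAt N τ).toValuationSubring ↔
      valAt τ (emb N ((1 : SL(2, ℤ)) : Coset N) x) ≤ 1 :=
  mem_placeOfEmb _ _ _ _ x

theorem mem_placeAt_inv_smul_iff (g : SL(2, ℤ)) (τ : ℍ) (x : FC N) :
    x ∈ (placeAt N (g⁻¹ • τ)).toValuationSubring ↔ valAt τ (emb N (g : Coset N) x) ≤ 1 := by
  rw [mem_placeAt_iff, emb_mk_eq g, valAt_actMer]

/-- The place at `τ` depends only on its `Γ₀(N)`-orbit. -/
theorem placeAt_smul {g : SL(2, ℤ)} (hg : g ∈ Gamma0 N) (τ : ℍ) :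
    placeAt N (g • τ) = placeAt N τ := by
  apply Place.ext
  ext x
  have h1 := mem_placeAt_inv_smul_iff (N := N) g⁻¹ τ x
  rw [inv_inv] at h1
  rw [h1, show ((g⁻¹ : SL(2, ℤ)) : Coset N) = ((1 : SL(2, ℤ)) : Coset N) from
    QuotientGroup.eq.mpr (by simpa using hg), mem_placeAt_iff]

/-- `ord_τ` is a positive multiple of the order at `placeAt τ`. -/
theorem exists_ordMer_eq_mul (τ : ℍ) : ∃ m : ℤ, 0 < m ∧ ∀ x : FC N, x ≠ 0 →
    ordMer τ (emb N ((1 : SL(2, ℤ)) : Coset N) x) = m * (placeAt N τ).ord x :=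
  exists_pos_mul_of_mem_iff (placeAt N τ) (valAt τ) (emb N ((1 : SL(2, ℤ)) : Coset N))
    (mem_placeAt_iff τ)

/-- The permutation of the cosets induced by left multiplication. -/
def cosetPerm (g : SL(2, ℤ)) : Equiv.Perm (Coset N) := MulAction.toPerm g

omit [NeZero N] in
/-- Cosets in one orbit of `cosetPerm g` differ by a power of `g`. -/
theorem mem_orbit_cosetPerm {g : SL(2, ℤ)} {c c' : Coset N}
    (h : c ∈ MulAction.orbit (Subgroup.zpowers (cosetPerm (N := N) g)) c') :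
    ∃ k : ℤ, g ^ k • c' = c := by
  obtain ⟨⟨p, hp⟩, rfl⟩ := h
  obtain ⟨k, hk⟩ := Subgroup.mem_zpowers_iff.mp hp
  refine ⟨k, ?_⟩
  show (g ^ k) • c' = p c'
  rw [← hk, cosetPerm, ← MulAction.toPermHom_apply, ← map_zpow]
  rfl

/-- The rotation at a fixed point of the inverse is inverse. -/
theorem denom_sq_zpow_inv {s : SL(2, ℤ)} {τ₀ : ℍ} (hs : s • τ₀ = τ₀) (k : ℤ) :
    (denom s τ₀ ^ 2) ^ k = ((denom (s⁻¹ : SL(2, ℤ)) τ₀ ^ 2) ^ k)⁻¹ := by
  have h1 := denom_mul_apply s⁻¹ s τ₀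
  rw [inv_mul_cancel, hs] at h1
  have h2 : denom s τ₀ = (denom (s⁻¹ : SL(2, ℤ)) τ₀)⁻¹ := by
    refine eq_inv_of_mul_eq_one_left ?_
    rw [mul_comm, ← h1]
    simp
  rw [h2, inv_pow, inv_zpow]

open scoped Classical in
/-- Places over `j = j τ₀`, labelled by the cosets, and a fixing element of `τ₀` rotating by a
root of unity of exact order `ord (j - j τ₀)`. -/
theorem places_over_point (τ₀ : ℍ) : ∃ s : SL(2, ℤ), s • τ₀ = τ₀ ∧
    (∀ k : ℤ, (denom s τ₀ ^ 2) ^ k = 1 → (ordHol τ₀ (jSubHol (jH τ₀)) : ℤ) ∣ k) ∧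
    (∀ v : Place ℂ (FC N), 0 < v.ord (jF N - algebraMap ℂ (FC N) (jH τ₀)) ↔
      ∃ c : Coset N, v = placeAt N (c.out⁻¹ • τ₀)) ∧
    (∀ c c' : Coset N, placeAt N (c.out⁻¹ • τ₀) = placeAt N (c'.out⁻¹ • τ₀) →
      ∃ k : ℤ, s ^ k • c' = c) ∧
    ∀ c : Coset N, (placeAt N (c.out⁻¹ • τ₀)).ord (jF N - algebraMap ℂ (FC N) (jH τ₀))
      = Function.minimalPeriod (fun d : Coset N => s • d) c := by
  obtain ⟨s, e, hs, he, hord, hprim⟩ := exists_stab τ₀
  let : Fintype (Coset N) := Fintype.ofFinite _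
  have hs' : s⁻¹ • τ₀ = τ₀ := by rw [inv_smul_eq_iff, hs]
  have hprim' : ∀ k : ℤ, (denom (s⁻¹ : SL(2, ℤ)) τ₀ ^ 2) ^ k = 1 → (e : ℤ) ∣ k :=
    fun k hk => hprim k (by rw [denom_sq_zpow_inv hs k, hk, inv_one])
  have h := places_iff_orbits (jF N) (jH τ₀) transcendental_jF (valAt τ₀)
    (fun _ hc => valAt_constant hc τ₀) (emb N) emb_injective
    (by rw [← Nat.card_eq_fintype_card]; exact finrank_adjoin_jF.2.symm)
    (toMerH N (jC N)) emb_jF e he
    (by
      rw [toMerH_jC_sub]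
      show ordMer τ₀ _ = _
      rw [ordMer_algebraMap (jSubHol_ne_zero _), hord])
    (cosetPerm s) (actMer s⁻¹).toAlgHom.toRingHom
    (fun c x => by
      show emb N (s • c) x = actMer s⁻¹ (emb N c x)
      rw [emb_smul, inv_inv])
    (fun g => by
      show valAt τ₀ (actMer s⁻¹ g) = _
      rw [valAt_actMer, hs'])
    (fun n g hg hfix => Genus.ordMer_dvd hs' e hprim' n g hg hfix)
    (fun c : Coset N => placeAt N (c.out⁻¹ • τ₀))
    (fun c x => by rw [mem_placeAt_inv_smul_iff, QuotientGroup.out_eq'])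
  exact ⟨s, hs, hord ▸ hprim, h.1, fun c c' hcc' => mem_orbit_cosetPerm ((h.2.1 c c').mp hcc'),
    h.2.2⟩

/-- The place at a translate depends only on the coset. -/
theorem placeAt_inv_out_smul (g : SL(2, ℤ)) (τ : ℍ) :
    placeAt N ((g : Coset N).out⁻¹ • τ) = placeAt N (g⁻¹ • τ) := by
  obtain ⟨h, hh⟩ := QuotientGroup.mk_out_eq_mul (Gamma0 N) g
  rw [hh, mul_inv_rev, mul_smul, placeAt_smul (inv_mem h.2)]

/-- At the place of `τ` the function `j - j(τ)` vanishes. -/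
theorem ord_jF_sub_placeAt_pos (τ : ℍ) :
    0 < (placeAt N τ).ord (jF N - algebraMap ℂ (FC N) (jH τ)) := by
  obtain ⟨s, -, -, h1, -, -⟩ := places_over_point (N := N) τ
  refine (h1 _).mpr ⟨((1 : SL(2, ℤ)) : Coset N), ?_⟩
  rw [placeAt_inv_out_smul, inv_one, one_smul]

/-- A place where `j` has no pole is a `placeAt`. -/
theorem exists_eq_placeAt {v : Place ℂ (FC N)} (hv : jF N ∈ v.toValuationSubring) :
    ∃ τ : ℍ, v = placeAt N τ := by
  obtain ⟨a, ha'⟩ := FF.exists_sub_mem_ordGe_one v hv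
  have hne : jF N - algebraMap ℂ (FC N) a ≠ 0 := fun h =>
    transcendental_jF (N := N) (by rw [sub_eq_zero.mp h]; exact isAlgebraic_algebraMap a)
  have ha : 0 < v.ord (jF N - algebraMap ℂ (FC N) a) := by
    have := FF.le_ord_of_mem_ordGe v hne ha'
    omega
  obtain ⟨τ₀, hτ₀⟩ := Genus.jH_surjective a
  obtain ⟨s, -, -, h1, -, -⟩ := places_over_point (N := N) τ₀
  rw [← genusJ_eq, hτ₀] at h1
  obtain ⟨c, hc⟩ := (h1 v).mp ha
  exact ⟨_, hc⟩

end Fermat.Agent.ModFun
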